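/-
P-CFT / LOCAL, row LOC-2 (helper49): MAIN RESULTS.

* `isUnramCyclic_cyclo` : for `N` prime to `Q`, `E(μ_N) / E` is unramified cyclic of degree
  the order of `Q` in `(ℤ/N)ˣ`, with Frobenius generator.
* `isUnramCyclic_cyclo_pow` : `E(μ_{Q^n - 1}) / E` is unramified cyclic of degree `n`.
* `localNormDatum_of_isUnramCyclic` : the `LocalNormDatum` of helper78's interface.
* `unramifiedCyclicStatement : UnramifiedCyclicStatement`.
-/
import Mathlib
import Fermat.Agent.H49.CFT.UnramField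

set_option autoImplicit false
set_option maxSynthPendingDepth 3

namespace Fermat.Agent.H49.Unram

open Polynomial IntermediateField

section Main

variable {E Om : Type*} [Field E] [Field Om] [Algebra E Om]
  {Γ₀ : Type*} [LinearOrderedCommGroupWithZero Γ₀] {w : Valuation Om Γ₀} {Q : ℕ}

/-- **(T1)** For `N` prime to the residue cardinality `Q`, the field `E(μ_N)` is unramified
cyclic over `E`, of degree the order of `Q` in `(ℤ/N)ˣ`, with a Frobenius generator. -/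
theorem isUnramCyclic_cyclo [IsAlgClosed Om] [Algebra.IsAlgebraic E Om]
    (h : ResidueDatum E Om w Q) {N : ℕ} (hN : Q.Coprime N) :
    ∃ φ : cyclo E Om N ≃ₐ[E] cyclo E Om N,
      IsUnramCyclic w Q (cyclo E Om N) (orderOf (ZMod.unitOfCoprime Q hN)) φ := by
  obtain ⟨ζ, hζ⟩ := exists_primitiveRoot h hN
  rw [cyclo_eq_adjoin_simple (ne_zero_of_coprime h hN) hζ]
  exact isUnramCyclic_adjoin_simple h hN hζ

lemma coprime_pow_sub_one (Q n : ℕ) (hQ : 0 < Q) (hn : 0 < n) : Q.Coprime (Q ^ n - 1) := by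
  have hpos : 1 ≤ Q ^ n := Nat.one_le_pow _ _ hQ
  rw [Nat.coprime_iff_gcd_eq_one]
  have h1 : Nat.gcd Q (Q ^ n - 1) ∣ Q ^ n :=
    dvd_trans (Nat.gcd_dvd_left _ _) (dvd_pow_self Q hn.ne')
  have h2 : Nat.gcd Q (Q ^ n - 1) ∣ Q ^ n - 1 := Nat.gcd_dvd_right _ _
  have h3 : Nat.gcd Q (Q ^ n - 1) ∣ Q ^ n - (Q ^ n - 1) := Nat.dvd_sub h1 h2
  have h4 : Q ^ n - (Q ^ n - 1) = 1 := by omega
  rw [h4] at h3
  exact Nat.dvd_one.1 h3

lemma orderOf_unit_pow_sub_one {Q n : ℕ} (hQ : 1 < Q) (hn : 0 < n)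
    (hN : Q.Coprime (Q ^ n - 1)) : orderOf (ZMod.unitOfCoprime Q hN) = n := by
  have key : ∀ m : ℕ, (ZMod.unitOfCoprime Q hN) ^ m = 1 ↔ Q ^ n - 1 ∣ Q ^ m - 1 := by
    intro m
    have hpos : 1 ≤ Q ^ m := Nat.one_le_pow _ _ (by omega)
    rw [Units.ext_iff]
    push_cast
    rw [ZMod.coe_unitOfCoprime, ← Nat.cast_pow, ← Nat.cast_one (R := ZMod (Q ^ n - 1)),
      eq_comm, ZMod.natCast_eq_natCast_iff, Nat.modEq_iff_dvd' hpos]
  rw [orderOf_eq_iff hn]
  refine ⟨(key n).2 dvd_rfl, fun m hm hm0 hm1 => ?_⟩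
  have hdvd := (key m).1 hm1
  have h1 : Q ^ m < Q ^ n := Nat.pow_lt_pow_right hQ hm
  have h2 : Q ^ 1 ≤ Q ^ m := Nat.pow_le_pow_right (by omega) hm0
  have h3 : 0 < Q ^ m - 1 := by
    rw [pow_one] at h2
    omega
  have := Nat.le_of_dvd h3 hdvd
  omega

/-- **(T2)** `E(μ_{Q^n - 1}) / E` is unramified cyclic of degree `n`, with a Frobenius
generator. -/
theorem isUnramCyclic_cyclo_pow [IsAlgClosed Om] [Algebra.IsAlgebraic E Om]
    (h : ResidueDatum E Om w Q) {n : ℕ} (hn : 0 < n) :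
    ∃ φ : cyclo E Om (Q ^ n - 1) ≃ₐ[E] cyclo E Om (Q ^ n - 1),
      IsUnramCyclic w Q (cyclo E Om (Q ^ n - 1)) n φ := by
  have hN := coprime_pow_sub_one Q n (by have := one_lt_Q h; omega) hn
  obtain ⟨φ, hφ⟩ := isUnramCyclic_cyclo h hN
  rw [orderOf_unit_pow_sub_one (one_lt_Q h) hn hN] at hφ
  exact ⟨φ, hφ⟩

/-- **(T3)** An unramified cyclic extension of a discretely valued henselian field carries a
`LocalNormDatum` (helper78's interface), with the same uniformizer. -/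
theorem localNormDatum_of_isUnramCyclic {F : IntermediateField E Om} {n : ℕ}
    {φ : F ≃ₐ[E] F} (hF : IsUnramCyclic w Q F n φ) (hunif : UnifK E w)
    (hhens : HenselK E w) :
    Fermat.Agent.H78.CFT.LocalNormDatum E F (w.comap (algebraMap F Om)) := by
  obtain ⟨π, hπ0, hπ1, hπ⟩ := hunif
  refine ⟨hF.galois_inv, ?_, ⟨π, hπ0, hπ1, hπ⟩, ?_, hhens⟩
  · refine ⟨algebraMap E F π, ?_, hπ1, ?_⟩
    · rw [Ne, map_eq_zero_iff _ (algebraMap E F).injective]
      exact hπ0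
    · intro x hx
      obtain ⟨y, hy⟩ := hF.unram x hx
      have hy0 : y ≠ 0 := by
        rintro rfl
        rw [map_zero, map_zero, Valuation.zero_iff] at hy
        exact hx (Subtype.ext hy)
      obtain ⟨m, hm⟩ := hπ y hy0
      exact ⟨m, hy.trans hm⟩
  · obtain ⟨R, -, hR⟩ := hF.res_card
    exact ⟨R, fun x hx => hR.2.2 x hx⟩

/-- **(T4)** The statement of row LOC-2. -/
theorem unramifiedCyclicStatement : UnramifiedCyclicStatement := by
  intro E Om _ _ _ _ _ Γ₀ _ w Q h n hn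
  obtain ⟨φ, hφ⟩ := isUnramCyclic_cyclo_pow h hn
  exact ⟨cyclo E Om (Q ^ n - 1), φ, hφ, localNormDatum_of_isUnramCyclic hφ⟩

end Main

end Fermat.Agent.H49.Unram
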