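/-
P-CFT / LOCAL, row LOC-2 (helper49): COMPATIBILITIES.

* `exists_residueDatum` : Galois invariance + helper78's `res_finite` shape give a
  `ResidueDatum E Om w Q` for `Q` the cardinality of the residue field; `Q` is unique.
* `IsUnramCyclic.frob_pow` : `φ ^ f` is congruent to `x ↦ x ^ (Q ^ f)`.
* `IsUnramCyclic.eq_pow_of_frob` : an automorphism of `Om / E` congruent to `x ↦ x ^ (Q ^ f)`
  on the integral elements of `F` agrees with `φ ^ f` on `F`.
* `IsUnramCyclic.frob_restrict` : Frobenius elements are compatible in towers.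
* `IsUnramCyclic.frob_baseChange` : for `E ≤ E'` with `Q' = Q ^ f`, the Frobenius of `F' / E'`
  restricts to `φ ^ f` on `F`.
-/
import Mathlib
import Fermat.Agent.H49.CFT.UnramMain

set_option autoImplicit false
set_option maxSynthPendingDepth 3

namespace Fermat.Agent.H49.Unram

open Polynomial IntermediateField

section Compat

variable {E Om : Type*} [Field E] [Field Om] [Algebra E Om]
  {Γ₀ : Type*} [LinearOrderedCommGroupWithZero Γ₀] {w : Valuation Om Γ₀} {Q : ℕ}

/-- The residue cardinality is the cardinality of the residue field of the valuation ring. -/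
theorem ResidueDatum.card_eq (h : ResidueDatum E Om w Q) : Q = Nat.card (ResE E w) := by
  obtain ⟨R, hcard, hR⟩ := h.res_card
  rw [resE_card w hR, hcard]

theorem ResidueDatum.unique {Q' : ℕ} (h : ResidueDatum E Om w Q)
    (h' : ResidueDatum E Om w Q') : Q = Q' := by
  rw [h.card_eq, h'.card_eq]

/-- From a finite covering system (helper78's `res_finite` shape) to a `ResidueDatum`. -/
theorem exists_residueDatum
    (hgal : ∀ (σ : Om ≃ₐ[E] Om) (x : Om), w (σ x) = w x)
    (hfin : ∃ R : Finset E, ∀ x : E, w (algebraMap E Om x) ≤ 1 →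
      ∃ r ∈ R, w (algebraMap E Om (x - r)) < 1) :
    ∃ Q, ResidueDatum E Om w Q := by
  classical
  obtain ⟨R₀, hR₀⟩ := hfin
  have hfin_k : Finite (ResE E w) := by
    let g : R₀ → ResE E w := fun r =>
      if h : w (algebraMap E Om r.1) ≤ 1 then IsLocalRing.residue (OE E w) ⟨r.1, h⟩ else 0
    apply Finite.of_surjective g
    intro y
    obtain ⟨a, rfl⟩ := IsLocalRing.residue_surjective y
    obtain ⟨r, hr, hlt⟩ := hR₀ a.1 a.2
    have hr1 : w (algebraMap E Om r) ≤ 1 := by
      have : algebraMap E Om r = algebraMap E Om a.1 - algebraMap E Om (a.1 - r) := by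
        rw [map_sub]; ring
      rw [this]
      exact (Valuation.map_sub _ _ _).trans (max_le a.2 hlt.le)
    refine ⟨⟨r, hr⟩, ?_⟩
    simp only [g, dif_pos hr1]
    rw [← sub_eq_zero, ← map_sub, residueE_eq_zero_iff]
    show w (algebraMap E Om (r - a.1)) < 1
    rw [← neg_sub, map_neg, Valuation.map_neg]
    exact hlt
  have hsec : ∀ y : ResE E w, ∃ a : OE E w, IsLocalRing.residue (OE E w) a = y :=
    IsLocalRing.residue_surjective
  choose s hs using hsec
  letI := Fintype.ofFinite (ResE E w)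
  have hsinj : Function.Injective (fun y : ResE E w => ((s y : OE E w) : E)) := by
    intro y y' hyy'
    have : s y = s y' := Subtype.ext hyy'
    rw [← hs y, ← hs y', this]
  refine ⟨Fintype.card (ResE E w), hgal,
    Finset.univ.image (fun y : ResE E w => ((s y : OE E w) : E)), ?_, ?_, ?_, ?_⟩
  · rw [Finset.card_image_of_injective _ hsinj, Finset.card_univ]
  · intro r hr
    obtain ⟨y, -, rfl⟩ := Finset.mem_image.1 hr
    exact (s y).2
  · intro r hr r' hr' hlt
    obtain ⟨y, -, rfl⟩ := Finset.mem_image.1 hr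
    obtain ⟨y', -, rfl⟩ := Finset.mem_image.1 hr'
    have h0 : IsLocalRing.residue (OE E w) (s y - s y') = 0 := by
      rw [residueE_eq_zero_iff]
      exact hlt
    rw [map_sub, hs, hs, sub_eq_zero] at h0
    rw [h0]
  · intro x hx
    refine ⟨_, Finset.mem_image.2 ⟨IsLocalRing.residue (OE E w) ⟨x, hx⟩, Finset.mem_univ _, rfl⟩,
      ?_⟩
    have h0 : IsLocalRing.residue (OE E w)
        (⟨x, hx⟩ - s (IsLocalRing.residue (OE E w) ⟨x, hx⟩)) = 0 := by
      rw [map_sub, hs, sub_self]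
    rw [residueE_eq_zero_iff] at h0
    exact h0

/-- Congruent integral elements have congruent powers. -/
lemma val_pow_sub_pow_lt_one (w : Valuation Om Γ₀) {a b : Om} (ha : w a ≤ 1) (hb : w b ≤ 1)
    (hab : w (a - b) < 1) (m : ℕ) : w (a ^ m - b ^ m) < 1 := by
  have h1 : red w ⟨a, ha⟩ = red w ⟨b, hb⟩ := (red_eq_red_iff w _ _).2 hab
  have h2 : red w (⟨a, ha⟩ ^ m) = red w (⟨b, hb⟩ ^ m) := by rw [map_pow, map_pow, h1]
  exact (red_eq_red_iff w _ _).1 h2

/-- `φ ^ f` is congruent to `x ↦ x ^ (Q ^ f)` on integral elements. -/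
theorem IsUnramCyclic.frob_pow {F : IntermediateField E Om} {n : ℕ} {φ : F ≃ₐ[E] F}
    (hF : IsUnramCyclic w Q F n φ) (f : ℕ) (y : F) (hy : w (y : Om) ≤ 1) :
    w ((((φ ^ f) y : F) : Om) - (y : Om) ^ (Q ^ f)) < 1 := by
  induction f with
  | zero => simp
  | succ f ih =>
    have hz : w (((φ ^ f) y : F) : Om) ≤ 1 := by rw [hF.galois_inv]; exact hy
    have h1 := hF.frob ((φ ^ f) y) hz
    have h2 := val_pow_sub_pow_lt_one w hz (by rw [map_pow]; exact pow_le_one₀ zero_le hy) ih Q
    have h3 : (((φ ^ (f + 1)) y : F) : Om) - (y : Om) ^ (Q ^ (f + 1)) =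
        ((φ ((φ ^ f) y) : F) : Om) - (((φ ^ f) y : F) : Om) ^ Q +
          ((((φ ^ f) y : F) : Om) ^ Q - ((y : Om) ^ (Q ^ f)) ^ Q) := by
      rw [pow_succ' φ, AlgEquiv.mul_apply, pow_succ, pow_mul]
      ring
    rw [h3]
    exact Valuation.map_add_lt w h1 h2

/-- **Uniqueness of Frobenius powers**: an automorphism of `Om / E` which is congruent to
`x ↦ x ^ (Q ^ f)` on the integral elements of `F` agrees with `φ ^ f` on `F`. -/
theorem IsUnramCyclic.eq_pow_of_frob {F : IntermediateField E Om} {n : ℕ} {φ : F ≃ₐ[E] F}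
    (hF : IsUnramCyclic w Q F n φ) (σ : Om ≃ₐ[E] Om) (f : ℕ)
    (hσ : ∀ y : F, w (y : Om) ≤ 1 → w (σ (y : Om) - (y : Om) ^ (Q ^ f)) < 1) (y : F) :
    σ (y : Om) = (((φ ^ f) y : F) : Om) := by
  have hgal : IsGalois E F := hF.isGalois
  have hτ : σ.restrictNormal F = φ ^ f := by
    apply hF.unique
    intro z hz
    rw [coe_restrictNormal]
    have h1 := hσ z hz
    have h2 := hF.frob_pow f z hz
    have h3 : σ (z : Om) - (((φ ^ f) z : F) : Om) =
        (σ (z : Om) - (z : Om) ^ (Q ^ f)) - ((((φ ^ f) z : F) : Om) - (z : Om) ^ (Q ^ f)) := by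
      ring
    rw [h3]
    exact Valuation.map_sub_lt w h1 h2
  rw [← hτ, coe_restrictNormal]

/-- **Frobenius in towers**: if `F ≤ F'` are both unramified cyclic over `E`, the Frobenius of
`F'` restricts to the Frobenius of `F`. -/
theorem IsUnramCyclic.frob_restrict [IsAlgClosed Om] [Algebra.IsAlgebraic E Om]
    {F F' : IntermediateField E Om} {n n' : ℕ} {φ : F ≃ₐ[E] F} {φ' : F' ≃ₐ[E] F'}
    (hF : IsUnramCyclic w Q F n φ) (hF' : IsUnramCyclic w Q F' n' φ') (hle : F ≤ F') (y : F) :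
    ((φ' (inclusion hle y) : F') : Om) = ((φ y : F) : Om) := by
  have := normal_of_isAlgClosed E Om
  have key := hF.eq_pow_of_frob (φ'.liftNormal Om) 1 (fun z hz => by
    have h1 := coe_liftNormal F' φ' (inclusion hle z)
    have h2 : ((inclusion hle z : F') : Om) = (z : Om) := rfl
    rw [h2] at h1
    rw [h1, pow_one]
    exact hF'.frob (inclusion hle z) hz) y
  rw [pow_one] at key
  rw [← key]
  exact (coe_liftNormal F' φ' (inclusion hle y)).symm

/-- `E(μ_N) ⊆ E'(μ_N)` for a tower `E → E' → Om`. -/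
lemma mem_cyclo_baseChange (E' : Type*) [Field E'] [Algebra E E'] [Algebra E' Om]
    [IsScalarTower E E' Om] {N : ℕ} {x : Om}
    (hx : x ∈ cyclo E Om N) : x ∈ cyclo E' Om N := by
  have hle : cyclo E Om N ≤ (cyclo E' Om N).restrictScalars E := by
    rw [cyclo, adjoin_le_iff]
    intro z hz
    exact subset_adjoin E' _ hz
  exact hle hx

/-- **Frobenius under base change**: let `E → E' → Om` be a tower with residue cardinalities
`Q` and `Q' = Q ^ f`, `F / E` and `F' / E'` unramified cyclic with Frobenius `φ`, `φ'`, and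
`F ⊆ F'`.  Then `φ'` restricts to `φ ^ f` on `F`. -/
theorem IsUnramCyclic.frob_baseChange [IsAlgClosed Om] [Algebra.IsAlgebraic E Om]
    (E' : Type*) [Field E'] [Algebra E E'] [Algebra E' Om] [IsScalarTower E E' Om]
    {Q' f : ℕ} (hQ' : Q' = Q ^ f)
    {F : IntermediateField E Om} {F' : IntermediateField E' Om} {n n' : ℕ}
    {φ : F ≃ₐ[E] F} {φ' : F' ≃ₐ[E'] F'}
    (hF : IsUnramCyclic w Q F n φ) (hF' : IsUnramCyclic w Q' F' n' φ')
    (hle : ∀ x : Om, x ∈ F → x ∈ F') (x : Om) (hx : x ∈ F) :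
    ((φ' ⟨x, hle x hx⟩ : F') : Om) = (((φ ^ f) ⟨x, hx⟩ : F) : Om) := by
  have halg : Algebra.IsAlgebraic E' Om := Algebra.IsAlgebraic.tower_top (K := E) E'
  have := normal_of_isAlgClosed E' Om
  have hlift : ∀ z : F', (φ'.liftNormal Om) (z : Om) = ((φ' z : F') : Om) := fun z =>
    coe_liftNormal F' φ' z
  have key := hF.eq_pow_of_frob ((φ'.liftNormal Om).restrictScalars E) f (fun z hz => by
    have h1 := hlift ⟨(z : Om), hle _ z.2⟩
    have h2 := hF'.frob ⟨(z : Om), hle _ z.2⟩ hz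
    rw [hQ'] at h2
    show w ((φ'.liftNormal Om) (z : Om) - (z : Om) ^ (Q ^ f)) < 1
    rw [h1]
    exact h2) ⟨x, hx⟩
  rw [← key]
  exact (hlift ⟨x, hle x hx⟩).symm

/-- **Residue degree**: for a tower `E → E' → Om` the residue cardinality of `E'` is a power
of that of `E`. -/
theorem ResidueDatum.exists_pow_eq (E' : Type*) [Field E'] [Algebra E E'] [Algebra E' Om]
    [IsScalarTower E E' Om] {Q' : ℕ}
    (h : ResidueDatum E Om w Q) (h' : ResidueDatum E' Om w Q') :
    ∃ f : ℕ, 0 < f ∧ Q' = Q ^ f := by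
  -- the map on valuation rings
  let j : OE E w →+* OE E' w :=
    { toFun := fun x => ⟨algebraMap E E' x, by
        show w (algebraMap E' Om (algebraMap E E' x)) ≤ 1
        rw [← IsScalarTower.algebraMap_apply]
        exact x.2⟩
      map_one' := Subtype.ext (map_one _)
      map_mul' := fun _ _ => Subtype.ext (map_mul _ _ _)
      map_zero' := Subtype.ext (map_zero _)
      map_add' := fun _ _ => Subtype.ext (map_add _ _ _) }
  let jbar : ResE E w →+* ResE E' w :=
    Ideal.Quotient.lift (IsLocalRing.maximalIdeal (OE E w))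
      ((IsLocalRing.residue (OE E' w)).comp j) (fun a ha => by
        rw [RingHom.comp_apply, residueE_eq_zero_iff]
        show w (algebraMap E' Om (algebraMap E E' a)) < 1
        rw [← IsScalarTower.algebraMap_apply]
        exact (Valuation.mem_maximalIdeal_iff E (w.comap (algebraMap E Om))).1 ha)
  letI : Algebra (ResE E w) (ResE E' w) := jbar.toAlgebra
  obtain ⟨R, hcard, hR⟩ := h.res_card
  obtain ⟨R', hcard', hR'⟩ := h'.res_card
  have hfin : Finite (ResE E w) := resE_finite w hR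
  have hfin' : Finite (ResE E' w) := resE_finite w hR'
  have hmf : Module.Finite (ResE E w) (ResE E' w) := Module.Finite.of_finite
  refine ⟨Module.finrank (ResE E w) (ResE E' w), Module.finrank_pos, ?_⟩
  rw [h'.card_eq, h.card_eq]
  exact Module.natCard_eq_pow_finrank

/-- The order of `Q ^ f` in `(ℤ/N)ˣ`. -/
lemma orderOf_unit_pow {Q N f : ℕ} (hN : Q.Coprime N) (hN' : (Q ^ f).Coprime N) (hf : f ≠ 0) :
    orderOf (ZMod.unitOfCoprime (Q ^ f) hN') =
      orderOf (ZMod.unitOfCoprime Q hN) / Nat.gcd (orderOf (ZMod.unitOfCoprime Q hN)) f := by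
  have h1 : ZMod.unitOfCoprime (Q ^ f) hN' = (ZMod.unitOfCoprime Q hN) ^ f := by
    apply Units.ext
    push_cast
    simp [ZMod.coe_unitOfCoprime]
  rw [h1, orderOf_pow' _ hf]

/-- **Base change of the unramified extension**: for a tower `E → E' → Om` with residue
cardinalities `Q` and `Q' = Q ^ f`, the field `E'(μ_{Q^m - 1})` is unramified cyclic over
`E'` of degree `m / gcd(m, f)`, and its Frobenius restricts to `φ ^ f` on `E(μ_{Q^m - 1})`. -/
theorem exists_frob_baseChange [IsAlgClosed Om] [Algebra.IsAlgebraic E Om]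
    (E' : Type*) [Field E'] [Algebra E E'] [Algebra E' Om] [IsScalarTower E E' Om]
    {Q' f : ℕ} (hQ' : Q' = Q ^ f) (h : ResidueDatum E Om w Q) (h' : ResidueDatum E' Om w Q')
    {m : ℕ} (hm : 0 < m) :
    ∃ φ' : cyclo E' Om (Q ^ m - 1) ≃ₐ[E'] cyclo E' Om (Q ^ m - 1),
      IsUnramCyclic w Q' (cyclo E' Om (Q ^ m - 1)) (m / Nat.gcd m f) φ' ∧
      ∀ φ : cyclo E Om (Q ^ m - 1) ≃ₐ[E] cyclo E Om (Q ^ m - 1),
        IsUnramCyclic w Q (cyclo E Om (Q ^ m - 1)) m φ →
        ∀ (x : Om) (hx : x ∈ cyclo E Om (Q ^ m - 1)),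
          ((φ' ⟨x, mem_cyclo_baseChange E' hx⟩ : cyclo E' Om (Q ^ m - 1)) : Om) =
            (((φ ^ f) ⟨x, hx⟩ : cyclo E Om (Q ^ m - 1)) : Om) := by
  have halg : Algebra.IsAlgebraic E' Om := Algebra.IsAlgebraic.tower_top (K := E) E'
  have hQ1 := one_lt_Q h
  have hf0 : f ≠ 0 := by
    rintro rfl
    have := one_lt_Q h'
    rw [hQ', pow_zero] at this
    exact lt_irrefl _ this
  have hN : Q.Coprime (Q ^ m - 1) := coprime_pow_sub_one Q m (by omega) hm
  have hN' : Q'.Coprime (Q ^ m - 1) := by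
    rw [hQ']
    exact Nat.Coprime.pow_left f hN
  obtain ⟨φ', hφ'⟩ := isUnramCyclic_cyclo h' hN'
  have hdeg : orderOf (ZMod.unitOfCoprime Q' hN') = m / Nat.gcd m f := by
    subst hQ'
    rw [orderOf_unit_pow hN hN' hf0, orderOf_unit_pow_sub_one hQ1 hm hN]
  rw [hdeg] at hφ'
  refine ⟨φ', hφ', fun φ hφ x hx => ?_⟩
  exact hφ.frob_baseChange E' hQ' hφ' (fun y hy => mem_cyclo_baseChange E' hy) x hx

end Compat

end Fermat.Agent.H49.Unram
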