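/-
P-CFT / LOCAL, row LOC-2 (helper49): CONCRETE EXPORT to the `q`-adic valuation of `ℚ̄`
(helper81's LOC-B1 language).

For `E` a finite extension of `K_v = ℚ̄^{D_q}` inside `ℚ̄` (`IsLocalFinite q E`):
* `residueDatum_qbar` : `ResidueDatum E ℚ̄ (qVal q) (resCard q E)`;
* `unramExt q E n := E(μ_{Q^n - 1})`, `Q = resCard q E`, is unramified cyclic of degree `n`
  over `E` with a Frobenius generator (`exists_frob_unramExt`), and carries a
  `LocalNormDatum` (`localNormDatum_unramExt`).
-/
import Mathlib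
import Fermat.Agent.H49.CFT.UnramCompat
import Fermat.Agent.H81.Local.LocalDatum

set_option autoImplicit false
set_option maxSynthPendingDepth 3

namespace Fermat.Agent.H49.Unram

open Polynomial IntermediateField Fermat.Agent.H81.Local

open scoped NNReal

section Qbar

variable {q : ℕ} [Fact q.Prime]

/-- Existence of the residue datum of a finite extension of `K_v`. -/
theorem exists_residueDatum_qbar {E : IntermediateField ℚ (AlgebraicClosure ℚ)}
    (hE : IsLocalFinite q E) :
    ∃ Q, ResidueDatum E (AlgebraicClosure ℚ) (qVal q) Q := by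
  classical
  apply exists_residueDatum (qVal_algEquiv hE.le)
  obtain ⟨R, hR, hrep⟩ := exists_residue_reps hE
  refine ⟨R.subtype (fun r => r ∈ E), fun x hx => ?_⟩
  obtain ⟨r, hr, hxr⟩ := hrep (x : AlgebraicClosure ℚ) x.2 hx
  exact ⟨⟨r, (hR r hr).1⟩, Finset.mem_subtype.mpr hr, hxr⟩

/-- The cardinality of the residue field of `E` (for the `q`-adic valuation of `ℚ̄`). -/
noncomputable def resCard (q : ℕ) [Fact q.Prime] (E : IntermediateField ℚ (AlgebraicClosure ℚ)) :
    ℕ :=
  Nat.card (ResE E (qVal q))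

theorem residueDatum_qbar {E : IntermediateField ℚ (AlgebraicClosure ℚ)}
    (hE : IsLocalFinite q E) :
    ResidueDatum E (AlgebraicClosure ℚ) (qVal q) (resCard q E) := by
  obtain ⟨Q, hQ⟩ := exists_residueDatum_qbar hE
  have : Q = resCard q E := hQ.card_eq
  rwa [this] at hQ

theorem unifK_qbar {E : IntermediateField ℚ (AlgebraicClosure ℚ)} (hE : IsLocalFinite q E) :
    UnifK E (qVal q) := by
  obtain ⟨π, hπE, hπ0, hπ1, hπ⟩ := exists_uniformizer hE
  refine ⟨⟨π, hπE⟩, ?_, hπ1, ?_⟩
  · intro h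
    exact hπ0 (congrArg Subtype.val h)
  · intro x hx
    exact hπ (x : AlgebraicClosure ℚ) x.2 (fun h => hx (Subtype.ext h))

theorem henselK_qbar {E : IntermediateField ℚ (AlgebraicClosure ℚ)} (hE : IsLocalFinite q E) :
    HenselK E (qVal q) := by
  intro f hf hfi a₀ ha₀ h1 h2
  exact hensel_intermediate q hE.le hf hfi ha₀ h1 h2

theorem isAlgebraic_qbar_over (E : IntermediateField ℚ (AlgebraicClosure ℚ)) :
    Algebra.IsAlgebraic E (AlgebraicClosure ℚ) :=
  haveI : Algebra.IsAlgebraic ℚ (AlgebraicClosure ℚ) := AlgebraicClosure.isAlgebraic ℚ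
  Algebra.IsAlgebraic.tower_top (K := ℚ) E

/-- The unramified extension of degree `n` of `E` inside `ℚ̄`. -/
noncomputable def unramExt (q : ℕ) [Fact q.Prime] (E : IntermediateField ℚ (AlgebraicClosure ℚ))
    (n : ℕ) : IntermediateField E (AlgebraicClosure ℚ) :=
  cyclo E (AlgebraicClosure ℚ) (resCard q E ^ n - 1)

/-- **LOC-2, concrete form**: `unramExt q E n / E` is unramified cyclic of degree `n` with a
Frobenius generator. -/
theorem exists_frob_unramExt {E : IntermediateField ℚ (AlgebraicClosure ℚ)}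
    (hE : IsLocalFinite q E) {n : ℕ} (hn : 0 < n) :
    ∃ φ : unramExt q E n ≃ₐ[E] unramExt q E n,
      IsUnramCyclic (qVal q) (resCard q E) (unramExt q E n) n φ :=
  haveI : Algebra.IsAlgebraic E (AlgebraicClosure ℚ) := isAlgebraic_qbar_over E
  isUnramCyclic_cyclo_pow (residueDatum_qbar hE) hn

theorem localNormDatum_unramExt {E : IntermediateField ℚ (AlgebraicClosure ℚ)}
    (hE : IsLocalFinite q E) {n : ℕ} (hn : 0 < n) :
    Fermat.Agent.H78.CFT.LocalNormDatum E (unramExt q E n) (qValOn q (unramExt q E n)) := by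
  obtain ⟨φ, hφ⟩ := exists_frob_unramExt hE hn
  exact localNormDatum_of_isUnramCyclic hφ (unifK_qbar hE) (henselK_qbar hE)

theorem unramExt_mono (E : IntermediateField ℚ (AlgebraicClosure ℚ)) {m m' : ℕ}
    (hmm' : m ∣ m') : unramExt q E m ≤ unramExt q E m' := by
  apply cyclo_mono
  exact Nat.pow_sub_one_dvd_pow_sub_one _ hmm'

/-- Frobenius elements are compatible in the tower of unramified extensions. -/
theorem frob_unramExt_restrict {E : IntermediateField ℚ (AlgebraicClosure ℚ)}
    {m m' : ℕ} (hmm' : m ∣ m')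
    {φ : unramExt q E m ≃ₐ[E] unramExt q E m} {φ' : unramExt q E m' ≃ₐ[E] unramExt q E m'}
    (hφ : IsUnramCyclic (qVal q) (resCard q E) (unramExt q E m) m φ)
    (hφ' : IsUnramCyclic (qVal q) (resCard q E) (unramExt q E m') m' φ')
    (y : unramExt q E m) :
    ((φ' (inclusion (unramExt_mono E hmm') y) : unramExt q E m') : AlgebraicClosure ℚ) =
      ((φ y : unramExt q E m) : AlgebraicClosure ℚ) :=
  haveI : Algebra.IsAlgebraic E (AlgebraicClosure ℚ) := isAlgebraic_qbar_over E
  hφ.frob_restrict hφ' (unramExt_mono E hmm') y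

/-- **Base change, concrete form**: for finite extensions `E ≤ E'` of `K_v` the residue
cardinality of `E'` is `Q ^ f`, `Q = resCard q E`; the field `E'(μ_{Q^m - 1}) = E' · unramExt q E m`
is unramified cyclic over `E'` of degree `m / gcd(m, f)`, and its Frobenius restricts to the
`f`-th power of the Frobenius of `unramExt q E m / E`. -/
theorem exists_frob_unramExt_baseChange {E E' : IntermediateField ℚ (AlgebraicClosure ℚ)}
    (hEE' : E ≤ E') (hE : IsLocalFinite q E) (hE' : IsLocalFinite q E') :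
    ∃ f : ℕ, 0 < f ∧ resCard q E' = resCard q E ^ f ∧
      ∀ m : ℕ, 0 < m →
        ∃ φ' : cyclo E' (AlgebraicClosure ℚ) (resCard q E ^ m - 1) ≃ₐ[E']
            cyclo E' (AlgebraicClosure ℚ) (resCard q E ^ m - 1),
          IsUnramCyclic (qVal q) (resCard q E')
            (cyclo E' (AlgebraicClosure ℚ) (resCard q E ^ m - 1)) (m / Nat.gcd m f) φ' ∧
          ∀ φ : unramExt q E m ≃ₐ[E] unramExt q E m,
            IsUnramCyclic (qVal q) (resCard q E) (unramExt q E m) m φ →
            ∀ (x : AlgebraicClosure ℚ) (hx : x ∈ unramExt q E m)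
              (hx' : x ∈ cyclo E' (AlgebraicClosure ℚ) (resCard q E ^ m - 1)),
              ((φ' ⟨x, hx'⟩ : cyclo E' (AlgebraicClosure ℚ) (resCard q E ^ m - 1)) :
                  AlgebraicClosure ℚ) =
                (((φ ^ f) ⟨x, hx⟩ : unramExt q E m) : AlgebraicClosure ℚ) := by
  letI : Algebra E E' := (IntermediateField.inclusion hEE').toRingHom.toAlgebra
  haveI : IsScalarTower E E' (AlgebraicClosure ℚ) :=
    IsScalarTower.of_algebraMap_eq (fun x => rfl)
  haveI : Algebra.IsAlgebraic E (AlgebraicClosure ℚ) := isAlgebraic_qbar_over E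
  obtain ⟨f, hf, hQ'⟩ := (residueDatum_qbar hE).exists_pow_eq E' (residueDatum_qbar hE')
  refine ⟨f, hf, hQ', fun m hm => ?_⟩
  obtain ⟨φ', hφ', hcompat⟩ :=
    exists_frob_baseChange E' hQ' (residueDatum_qbar hE) (residueDatum_qbar hE') hm
  exact ⟨φ', hφ', fun φ hφ x hx hx' => hcompat φ hφ x hx⟩

end Qbar

end Fermat.Agent.H49.Unram
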