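/-
P-CFT / LOCAL, row LOC-2 (helper49): unramified cyclic extensions of every degree,
abstract henselian setting.  INTERFACE (definitions and statement only).

Setting: fields `E ⊆ Om`, `Om` algebraically closed and algebraic over `E`,
`w : Valuation Om Γ₀` (any value group) invariant under `Aut(Om/E)`, such that the
residue field of `(E, w|E)` is finite with exactly `Q` elements (given by a complete
system of representatives).  No discreteness and no Hensel hypothesis is needed for the
construction: Galois invariance of `w` is the henselian input.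

`cyclo E Om N = E(μ_N) ⊆ Om`.  For `N` prime to `Q` it is unramified cyclic over `E` of
degree the order of `Q` in `(ℤ/N)ˣ`, with a Frobenius generator; for `N = Q ^ n - 1` the
degree is `n`.
-/
import Mathlib
import Fermat.Agent.H78.CFT.LocalDefs

set_option autoImplicit false
set_option maxSynthPendingDepth 3

namespace Fermat.Agent.H49.Unram

variable (E Om : Type*) [Field E] [Field Om] [Algebra E Om]
  {Γ₀ : Type*} [LinearOrderedCommGroupWithZero Γ₀]

/-- `R` is a complete system of representatives of the residue field of `(E, w|E)`: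
integral, pairwise incongruent modulo the maximal ideal, and covering. -/
def IsResSystem (w : Valuation Om Γ₀) (R : Finset E) : Prop :=
  (∀ r ∈ R, w (algebraMap E Om r) ≤ 1) ∧
  (∀ r ∈ R, ∀ s ∈ R, w (algebraMap E Om (r - s)) < 1 → r = s) ∧
  ∀ x : E, w (algebraMap E Om x) ≤ 1 → ∃ r ∈ R, w (algebraMap E Om (x - r)) < 1

/-- The hypotheses on the base field: `w` is invariant under `Aut(Om/E)` and the residue
field of `(E, w|E)` has exactly `Q` elements. -/
structure ResidueDatum (w : Valuation Om Γ₀) (Q : ℕ) : Prop where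
  /-- `w` is invariant under all `E`-automorphisms of `Om`. -/
  galois_inv : ∀ (σ : Om ≃ₐ[E] Om) (x : Om), w (σ x) = w x
  /-- the residue field of `E` has exactly `Q` elements. -/
  res_card : ∃ R : Finset E, R.card = Q ∧ IsResSystem E Om w R

/-- The cyclotomic subfield `E(μ_N) ⊆ Om`. -/
def cyclo (N : ℕ) : IntermediateField E Om :=
  IntermediateField.adjoin E {x : Om | x ^ N = 1}

variable {E Om}

/-- `F / E` is unramified cyclic of degree `n` with Frobenius generator `φ`
(relative to the valuation `w` of `Om` and the residue cardinality `Q` of `E`). -/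
structure IsUnramCyclic (w : Valuation Om Γ₀) (Q : ℕ) (F : IntermediateField E Om) (n : ℕ)
    (φ : F ≃ₐ[E] F) : Prop where
  finiteDimensional : FiniteDimensional E F
  isGalois : IsGalois E F
  finrank_eq : Module.finrank E F = n
  /-- unramified: the value group does not grow. -/
  unram : ∀ x : F, x ≠ 0 → ∃ y : E, w (x : Om) = w (algebraMap E Om y)
  /-- `φ` is a Frobenius: `φ x ≡ x ^ Q` modulo the maximal ideal, for integral `x`. -/
  frob : ∀ x : F, w (x : Om) ≤ 1 → w ((φ x : Om) - (x : Om) ^ Q) < 1
  /-- `φ` generates the Galois group. -/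
  gen : ∀ σ : F ≃ₐ[E] F, σ ∈ Subgroup.zpowers φ
  orderOf_eq : orderOf φ = n
  /-- an automorphism is determined by its action on the residue field. -/
  unique : ∀ σ τ : F ≃ₐ[E] F,
    (∀ x : F, w (x : Om) ≤ 1 → w ((σ x : Om) - (τ x : Om)) < 1) → σ = τ
  /-- the residue field of `F` has exactly `Q ^ n` elements. -/
  res_card : ∃ R : Finset F, R.card = Q ^ n ∧ IsResSystem F Om w R
  /-- `w` is invariant under `Gal(F/E)`. -/
  galois_inv : ∀ (σ : F ≃ₐ[E] F) (x : F), w (σ x : Om) = w (x : Om)

/-- Discreteness of `w` on `E` (shape of `LocalNormDatum.unifK`). -/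
def UnifK (E : Type*) {Om : Type*} [Field E] [Field Om] [Algebra E Om]
    {Γ₀ : Type*} [LinearOrderedCommGroupWithZero Γ₀] (w : Valuation Om Γ₀) : Prop :=
  ∃ π : E, π ≠ 0 ∧ w (algebraMap E Om π) < 1 ∧
    ∀ x : E, x ≠ 0 → ∃ n : ℤ, w (algebraMap E Om x) = w (algebraMap E Om π) ^ n

open Polynomial in
/-- Hensel's lemma in `E` (shape of `LocalNormDatum.hensel`). -/
def HenselK (E : Type*) {Om : Type*} [Field E] [Field Om] [Algebra E Om]
    {Γ₀ : Type*} [LinearOrderedCommGroupWithZero Γ₀] (w : Valuation Om Γ₀) : Prop :=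
  ∀ f : E[X], f.Monic → (∀ i, w (algebraMap E Om (f.coeff i)) ≤ 1) →
    ∀ a₀ : E, w (algebraMap E Om a₀) ≤ 1 → w (algebraMap E Om (f.eval a₀)) < 1 →
      w (algebraMap E Om (f.derivative.eval a₀)) = 1 →
        ∃ a : E, f.eval a = 0 ∧ w (algebraMap E Om (a - a₀)) < 1

/-- **LOC-2, statement** (row 469): in the abstract henselian setting, for every `n ≥ 1`
there is an unramified cyclic extension `F / E` of degree `n` inside `Om` with a Frobenius
generator; if moreover `w|E` is discrete and `E` satisfies Hensel, then `(E, F, w|F)` is a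
`LocalNormDatum`. -/
def UnramifiedCyclicStatement : Prop :=
  ∀ (E Om : Type) [Field E] [Field Om] [Algebra E Om] [IsAlgClosed Om]
    [Algebra.IsAlgebraic E Om] (Γ₀ : Type) [LinearOrderedCommGroupWithZero Γ₀]
    (w : Valuation Om Γ₀) (Q : ℕ), ResidueDatum E Om w Q → ∀ n : ℕ, 0 < n →
      ∃ (F : IntermediateField E Om) (φ : F ≃ₐ[E] F), IsUnramCyclic w Q F n φ ∧
        (UnifK E w → HenselK E w →
          Fermat.Agent.H78.CFT.LocalNormDatum E F (w.comap (algebraMap F Om)))

end Fermat.Agent.H49.Unram
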