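/-
P-CFT / LOCAL, row LOC-2 (helper49): residue-level machinery for the unramified
cyclotomic extensions.  Mathlib only (plus the interface file).

* finite subfields of a field: Frobenius fixed points;
* the valuation ring `OO w` of `Om`, its residue field `KK w`, the valuation ring `OE E w`
  of `E`, the maps `iota : OE →+* OO`, `rho : OE →+* KK`;
* the residue field `ResE E w` of `E` is finite with `Q` elements (from `ResidueDatum`);
* Frobenius `x ↦ x ^ Q` on `KK w` fixes exactly the image of `rho`.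
-/
import Mathlib
import Fermat.Agent.H49.CFT.UnramDefs

set_option autoImplicit false
set_option maxSynthPendingDepth 3

namespace Fermat.Agent.H49.Unram

open Polynomial

section Abstract

variable {k κ : Type*} [Field k] [Fintype k] [Field κ]

lemma abs_natCast_card_eq_zero (f : k →+* κ) : ((Fintype.card k : ℕ) : κ) = 0 := by
  rw [← map_natCast f, FiniteField.cast_card_eq_zero, map_zero]

lemma abs_map_pow_card (f : k →+* κ) (c : k) : f c ^ Fintype.card k = f c := by
  rw [← map_pow, FiniteField.pow_card]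

lemma abs_mem_range_of_pow_card (f : k →+* κ) {y : κ} (hy : y ^ Fintype.card k = y) :
    y ∈ Set.range f := by
  classical
  have hq : 1 < Fintype.card k := Fintype.one_lt_card
  set P : κ[X] := X ^ Fintype.card k - X with hP
  have hP0 : P ≠ 0 := FiniteField.X_pow_card_sub_X_ne_zero κ hq
  have hdeg : P.natDegree = Fintype.card k := FiniteField.X_pow_card_sub_X_natDegree_eq κ hq
  have hsub : (Finset.univ.image f) ⊆ P.roots.toFinset := by
    intro z hz
    obtain ⟨c, -, rfl⟩ := Finset.mem_image.1 hz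
    rw [Multiset.mem_toFinset, mem_roots hP0]
    simp [P, IsRoot.def, abs_map_pow_card f c]
  have hcard : P.roots.toFinset.card ≤ (Finset.univ.image f).card := by
    rw [Finset.card_image_of_injective _ f.injective, Finset.card_univ]
    calc P.roots.toFinset.card ≤ Multiset.card P.roots := Multiset.toFinset_card_le _
      _ ≤ P.natDegree := card_roots' P
      _ = _ := hdeg
  have heq := Finset.eq_of_subset_of_card_le hsub hcard
  have hmem : y ∈ P.roots.toFinset := by
    rw [Multiset.mem_toFinset, mem_roots hP0]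
    simp [P, IsRoot.def, hy]
  rw [← heq] at hmem
  obtain ⟨c, -, rfl⟩ := Finset.mem_image.1 hmem
  exact ⟨c, rfl⟩

lemma abs_exists_prime_pow (f : k →+* κ) :
    ∃ p a : ℕ, p.Prime ∧ 0 < a ∧ CharP κ p ∧ Fintype.card k = p ^ a := by
  obtain ⟨p, hp⟩ := CharP.exists k
  obtain ⟨n, hpp, hn⟩ := FiniteField.card k p
  exact ⟨p, n, hpp, n.pos, charP_of_injective_ringHom f.injective p, hn⟩

end Abstract

section Setting

variable {E Om : Type*} [Field E] [Field Om] [Algebra E Om]
  {Γ₀ : Type*} [LinearOrderedCommGroupWithZero Γ₀]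

/-- The valuation ring of `Om`. -/
abbrev OO (w : Valuation Om Γ₀) : ValuationSubring Om := w.valuationSubring

/-- The residue field of `Om`. -/
abbrev KK (w : Valuation Om Γ₀) : Type _ := IsLocalRing.ResidueField (OO w)

/-- The reduction map of `Om`. -/
noncomputable abbrev red (w : Valuation Om Γ₀) : OO w →+* KK w := IsLocalRing.residue (OO w)

/-- The valuation ring of `E`. -/
abbrev OE (E : Type*) {Om : Type*} [Field E] [Field Om] [Algebra E Om]
    {Γ₀ : Type*} [LinearOrderedCommGroupWithZero Γ₀] (w : Valuation Om Γ₀) :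
    ValuationSubring E :=
  (w.comap (algebraMap E Om)).valuationSubring

/-- The residue field of `E`. -/
abbrev ResE (E : Type*) {Om : Type*} [Field E] [Field Om] [Algebra E Om]
    {Γ₀ : Type*} [LinearOrderedCommGroupWithZero Γ₀] (w : Valuation Om Γ₀) : Type _ :=
  IsLocalRing.ResidueField (OE E w)

lemma mem_OO_iff (w : Valuation Om Γ₀) (x : Om) : x ∈ OO w ↔ w x ≤ 1 := Iff.rfl

lemma mem_OE_iff (w : Valuation Om Γ₀) (x : E) : x ∈ OE E w ↔ w (algebraMap E Om x) ≤ 1 :=
  Iff.rfl

lemma val_le_one (w : Valuation Om Γ₀) (x : OO w) : w (x : Om) ≤ 1 := x.2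

/-- The inclusion of the valuation ring of `E` into that of `Om`. -/
noncomputable def iota (E : Type*) {Om : Type*} [Field E] [Field Om] [Algebra E Om]
    {Γ₀ : Type*} [LinearOrderedCommGroupWithZero Γ₀] (w : Valuation Om Γ₀) :
    OE E w →+* OO w where
  toFun x := ⟨algebraMap E Om x, x.2⟩
  map_one' := Subtype.ext (map_one _)
  map_mul' _ _ := Subtype.ext (map_mul _ _ _)
  map_zero' := Subtype.ext (map_zero _)
  map_add' _ _ := Subtype.ext (map_add _ _ _)

@[simp] lemma coe_iota (w : Valuation Om Γ₀) (x : OE E w) :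
    ((iota E w x : OO w) : Om) = algebraMap E Om (x : E) := rfl

/-- Reduction of integral elements of `E` into the residue field of `Om`. -/
noncomputable def rho (E : Type*) {Om : Type*} [Field E] [Field Om] [Algebra E Om]
    {Γ₀ : Type*} [LinearOrderedCommGroupWithZero Γ₀] (w : Valuation Om Γ₀) :
    OE E w →+* KK w :=
  (red w).comp (iota E w)

lemma rho_apply (w : Valuation Om Γ₀) (x : OE E w) : rho E w x = red w (iota E w x) := rfl

lemma red_eq_zero_iff (w : Valuation Om Γ₀) (x : OO w) : red w x = 0 ↔ w (x : Om) < 1 := by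
  rw [IsLocalRing.residue_eq_zero_iff]
  exact Valuation.mem_maximalIdeal_iff Om w

lemma red_eq_red_iff (w : Valuation Om Γ₀) (x y : OO w) :
    red w x = red w y ↔ w ((x : Om) - (y : Om)) < 1 := by
  rw [← sub_eq_zero, ← map_sub, red_eq_zero_iff]
  rfl

lemma red_ne_zero_iff (w : Valuation Om Γ₀) (x : OO w) : red w x ≠ 0 ↔ w (x : Om) = 1 := by
  rw [Ne, red_eq_zero_iff, not_lt]
  exact ⟨fun h => le_antisymm x.2 h, fun h => h.ge⟩

lemma rho_eq_zero_iff (w : Valuation Om Γ₀) (x : OE E w) :
    rho E w x = 0 ↔ w (algebraMap E Om (x : E)) < 1 := by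
  rw [rho_apply, red_eq_zero_iff]
  rfl

lemma residueE_eq_zero_iff (w : Valuation Om Γ₀) (x : OE E w) :
    IsLocalRing.residue (OE E w) x = 0 ↔ w (algebraMap E Om (x : E)) < 1 := by
  rw [IsLocalRing.residue_eq_zero_iff]
  exact Valuation.mem_maximalIdeal_iff E (w.comap (algebraMap E Om))

/-- The embedding of the residue field of `E` into that of `Om`. -/
noncomputable def rhoBar (E : Type*) {Om : Type*} [Field E] [Field Om] [Algebra E Om]
    {Γ₀ : Type*} [LinearOrderedCommGroupWithZero Γ₀] (w : Valuation Om Γ₀) :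
    ResE E w →+* KK w :=
  Ideal.Quotient.lift (IsLocalRing.maximalIdeal (OE E w)) (rho E w) (fun a ha => by
    rw [rho_eq_zero_iff]
    exact (Valuation.mem_maximalIdeal_iff E (w.comap (algebraMap E Om))).1 ha)

lemma rhoBar_residue (w : Valuation Om Γ₀) (x : OE E w) :
    rhoBar E w (IsLocalRing.residue (OE E w) x) = rho E w x := rfl

/-- A complete system of representatives is in bijection with the residue field. -/
lemma resE_bijective (w : Valuation Om Γ₀) {R : Finset E} (hR : IsResSystem E Om w R) :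
    Function.Bijective (fun r : R => IsLocalRing.residue (OE E w) ⟨r.1, hR.1 r.1 r.2⟩) := by
  constructor
  · intro r s hrs
    have h1 : IsLocalRing.residue (OE E w)
        ((⟨r.1, hR.1 r.1 r.2⟩ : OE E w) - ⟨s.1, hR.1 s.1 s.2⟩) = 0 := by
      rw [map_sub, sub_eq_zero]; exact hrs
    rw [residueE_eq_zero_iff] at h1
    exact Subtype.ext (hR.2.1 r.1 r.2 s.1 s.2 h1)
  · intro y
    obtain ⟨a, rfl⟩ := IsLocalRing.residue_surjective y
    obtain ⟨r, hr, hlt⟩ := hR.2.2 a.1 a.2
    refine ⟨⟨r, hr⟩, ?_⟩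
    symm
    rw [← sub_eq_zero, ← map_sub, residueE_eq_zero_iff]
    exact hlt

lemma resE_finite (w : Valuation Om Γ₀) {R : Finset E} (hR : IsResSystem E Om w R) :
    Finite (ResE E w) :=
  Finite.of_surjective _ (resE_bijective w hR).2

lemma resE_card (w : Valuation Om Γ₀) {R : Finset E} (hR : IsResSystem E Om w R) :
    Nat.card (ResE E w) = R.card := by
  rw [← Nat.card_eq_of_bijective _ (resE_bijective w hR)]
  simp

end Setting

section Frob

variable {E Om : Type*} [Field E] [Field Om] [Algebra E Om]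
  {Γ₀ : Type*} [LinearOrderedCommGroupWithZero Γ₀] {w : Valuation Om Γ₀} {Q : ℕ}

/-- Package: the residue field of `E` is a finite field with `Q` elements. -/
lemma exists_fintype_resE (h : ResidueDatum E Om w Q) :
    ∃ _ : Fintype (ResE E w), Fintype.card (ResE E w) = Q := by
  obtain ⟨R, hcard, hR⟩ := h.res_card
  have := resE_finite w hR
  refine ⟨Fintype.ofFinite _, ?_⟩
  rw [Fintype.card_eq_nat_card, resE_card w hR, hcard]

lemma one_lt_Q (h : ResidueDatum E Om w Q) : 1 < Q := by
  obtain ⟨_, hQ⟩ := exists_fintype_resE h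
  rw [← hQ]
  exact Fintype.one_lt_card

lemma rho_pow_Q (h : ResidueDatum E Om w Q) (c : OE E w) : rho E w c ^ Q = rho E w c := by
  obtain ⟨_, hQ⟩ := exists_fintype_resE h
  rw [← hQ, ← rhoBar_residue]
  exact abs_map_pow_card (rhoBar E w) _

lemma mem_range_rho_of_pow_Q (h : ResidueDatum E Om w Q) {y : KK w} (hy : y ^ Q = y) :
    y ∈ Set.range (rho E w) := by
  obtain ⟨_, hQ⟩ := exists_fintype_resE h
  rw [← hQ] at hy
  obtain ⟨c, rfl⟩ := abs_mem_range_of_pow_card (rhoBar E w) hy
  obtain ⟨a, rfl⟩ := IsLocalRing.residue_surjective c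
  exact ⟨a, rfl⟩

lemma natCast_Q_eq_zero (h : ResidueDatum E Om w Q) : ((Q : ℕ) : KK w) = 0 := by
  obtain ⟨_, hQ⟩ := exists_fintype_resE h
  rw [← hQ]
  exact abs_natCast_card_eq_zero (rhoBar E w)

/-- `x ↦ x ^ Q` is a ring endomorphism of the residue field of `Om`. -/
lemma exists_frobenius (h : ResidueDatum E Om w Q) :
    ∃ Φ : KK w →+* KK w, ∀ y, Φ y = y ^ Q := by
  obtain ⟨_, hQ⟩ := exists_fintype_resE h
  obtain ⟨p, a, hp, -, hchar, hpa⟩ := abs_exists_prime_pow (rhoBar E w)
  have : Fact p.Prime := ⟨hp⟩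
  have : ExpChar (KK w) p := ExpChar.prime hp
  refine ⟨iterateFrobenius (KK w) p a, fun y => ?_⟩
  rw [iterateFrobenius_def, ← hpa, hQ]

lemma natCast_ne_zero_of_coprime (h : ResidueDatum E Om w Q) {N : ℕ} (hN : Q.Coprime N) :
    ((N : ℕ) : KK w) ≠ 0 := by
  intro h0
  have hco : IsCoprime (Q : ℤ) (N : ℤ) := Nat.isCoprime_iff_coprime.2 hN
  obtain ⟨a, b, hab⟩ := hco
  have := congrArg (Int.cast : ℤ → KK w) hab
  push_cast at this
  rw [natCast_Q_eq_zero h, h0, mul_zero, mul_zero, add_zero] at this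
  exact zero_ne_one this

lemma val_natCast_le_one (w : Valuation Om Γ₀) (N : ℕ) : w (N : Om) ≤ 1 := by
  have : ((N : OO w) : Om) = (N : Om) := map_natCast (OO w).subtype N
  rw [← this]
  exact (N : OO w).2

lemma val_natCast_eq_one (h : ResidueDatum E Om w Q) {N : ℕ} (hN : Q.Coprime N) :
    w (N : Om) = 1 := by
  have h1 : red w (N : OO w) ≠ 0 := by
    rw [map_natCast]
    exact natCast_ne_zero_of_coprime h hN
  have := (red_ne_zero_iff w _).1 h1
  rwa [show ((N : OO w) : Om) = (N : Om) from map_natCast (OO w).subtype N] at this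

/-- Frobenius commutes with evaluation of polynomials with coefficients in `OE`. -/
lemma frob_eval₂ (h : ResidueDatum E Om w Q) (g : (OE E w)[X]) (y : KK w) :
    (eval₂ (rho E w) y g) ^ Q = eval₂ (rho E w) (y ^ Q) g := by
  obtain ⟨Φ, hΦ⟩ := exists_frobenius h
  have hcomp : Φ.comp (rho E w) = rho E w := by
    ext c
    rw [RingHom.comp_apply, hΦ, rho_pow_Q h]
  rw [← hΦ, hom_eval₂, hcomp, hΦ]

lemma frob_eval₂_iter (h : ResidueDatum E Om w Q) (g : (OE E w)[X]) (y : KK w) (j : ℕ) :
    (eval₂ (rho E w) y g) ^ (Q ^ j) = eval₂ (rho E w) (y ^ (Q ^ j)) g := by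
  induction j with
  | zero => simp
  | succ j ih => rw [pow_succ, pow_mul, ih, frob_eval₂ h, ← pow_mul]

lemma red_eval₂ (w : Valuation Om Γ₀) (g : (OE E w)[X]) (x : OO w) :
    red w (eval₂ (iota E w) x g) = eval₂ (rho E w) (red w x) g := by
  rw [hom_eval₂]
  rfl

lemma coe_eval₂ (w : Valuation Om Γ₀) (g : (OE E w)[X]) (x : OO w) :
    ((eval₂ (iota E w) x g : OO w) : Om) = aeval (x : Om) (g.map (OE E w).subtype) := by
  have h1 := hom_eval₂ g (iota E w) (OO w).subtype x
  rw [aeval_def, eval₂_map]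
  exact h1

/-- Polynomials over `E` with integral coefficients come from `OE`. -/
lemma exists_lift_of_integral (w : Valuation Om Γ₀) (f : E[X])
    (hf : ∀ i, w (algebraMap E Om (f.coeff i)) ≤ 1) :
    ∃ g : (OE E w)[X], g.map (OE E w).subtype = f := by
  have : f ∈ lifts (OE E w).subtype := by
    rw [lifts_iff_coeff_lifts]
    intro i
    exact ⟨⟨f.coeff i, hf i⟩, rfl⟩
  exact (mem_lifts f).1 this

lemma map_subtype_injective (w : Valuation Om Γ₀) :
    Function.Injective (Polynomial.map (OE E w).subtype) :=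
  map_injective _ (OE E w).subtype_injective

lemma coeff_map_rho_eq_zero_iff (w : Valuation Om Γ₀) (g : (OE E w)[X]) (i : ℕ) :
    (g.map (rho E w)).coeff i = 0 ↔ w (algebraMap E Om ((g.map (OE E w).subtype).coeff i)) < 1 := by
  rw [coeff_map, coeff_map, rho_eq_zero_iff]
  rfl

end Frob

end Fermat.Agent.H49.Unram
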