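/-
P-CFT / LOCAL, row LOC-2 (helper49): the cyclotomic extension `E(ζ)`, `ζ` a primitive
`N`-th root of unity with `N` prime to the residue cardinality `Q`:
Frobenius conjugate, Galois orbit of `ζ`, orthogonality of the power basis.
-/
import Mathlib
import Fermat.Agent.H49.CFT.UnramResidue

set_option autoImplicit false
set_option maxSynthPendingDepth 3

namespace Fermat.Agent.H49.Unram

open Polynomial

section RootsOfUnity

variable {E Om : Type*} [Field E] [Field Om] [Algebra E Om]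
  {Γ₀ : Type*} [LinearOrderedCommGroupWithZero Γ₀] {w : Valuation Om Γ₀} {Q : ℕ}

lemma val_eq_one_of_pow_eq_one (w : Valuation Om Γ₀) {x : Om} {N : ℕ} (hN : N ≠ 0)
    (hx : x ^ N = 1) : w x = 1 := by
  have h1 : w x ^ N = 1 := by rw [← map_pow, hx, map_one]
  exact (pow_eq_one_iff.1 h1).resolve_right hN

lemma ne_zero_of_coprime (h : ResidueDatum E Om w Q) {N : ℕ} (hN : Q.Coprime N) : N ≠ 0 := by
  rintro rfl
  have := one_lt_Q h
  rw [Nat.coprime_zero_right] at hN
  omega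

lemma val_sum_pow_le_one (w : Valuation Om Γ₀) {t : Om} (ht : w t ≤ 1) (n : ℕ) :
    w (∑ j ∈ Finset.range n, t ^ j) ≤ 1 := by
  refine Valuation.map_sum_le w (fun j _ => ?_)
  rw [map_pow]
  exact pow_le_one₀ zero_le ht

/-- A root of unity `t ≠ 1` of order prime to `Q` has `w (1 - t) = 1`. -/
lemma val_one_sub_eq_one (h : ResidueDatum E Om w Q) {N : ℕ} (hN : Q.Coprime N) {t : Om}
    (ht : t ^ N = 1) (ht1 : t ≠ 1) : w (1 - t) = 1 := by
  have hN0 := ne_zero_of_coprime h hN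
  have hwt : w t = 1 := val_eq_one_of_pow_eq_one w hN0 ht
  have h1t : (1 - t) ≠ 0 := sub_ne_zero.2 (Ne.symm ht1)
  -- `∑_{i<N} t^i = 0`
  have hsum : ∑ i ∈ Finset.range N, t ^ i = 0 := by
    have := mul_neg_geom_sum t N
    rw [ht, sub_self] at this
    exact (mul_eq_zero.1 this).resolve_left h1t
  -- `N = (1 - t) * s`
  have hN' : (N : Om) = (1 - t) * ∑ i ∈ Finset.range N, ∑ j ∈ Finset.range i, t ^ j := by
    rw [Finset.mul_sum]
    have : ∀ i ∈ Finset.range N, (1 - t) * ∑ j ∈ Finset.range i, t ^ j = 1 - t ^ i :=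
      fun i _ => mul_neg_geom_sum t i
    rw [Finset.sum_congr rfl this, Finset.sum_sub_distrib, hsum]
    simp
  have hs : w (∑ i ∈ Finset.range N, ∑ j ∈ Finset.range i, t ^ j) ≤ 1 :=
    Valuation.map_sum_le w (fun i _ => val_sum_pow_le_one w hwt.le i)
  have hle : w (1 - t) ≤ 1 := by
    refine le_trans (Valuation.map_sub w 1 t) ?_
    rw [map_one, hwt, max_self]
  have hN1 := val_natCast_eq_one h hN
  rw [hN', map_mul] at hN1
  refine le_antisymm hle ?_
  calc (1 : Γ₀) = w (1 - t) * w (∑ i ∈ Finset.range N, ∑ j ∈ Finset.range i, t ^ j) := hN1.symm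
    _ ≤ w (1 - t) * 1 := by gcongr
    _ = w (1 - t) := mul_one _

/-- Reduction is injective on the `N`-th roots of unity, `N` prime to `Q`. -/
lemma eq_of_val_sub_lt_one (h : ResidueDatum E Om w Q) {N : ℕ} (hN : Q.Coprime N) {x y : Om}
    (hx : x ^ N = 1) (hy : y ^ N = 1) (hxy : w (x - y) < 1) : x = y := by
  by_contra hne
  have hN0 := ne_zero_of_coprime h hN
  have hx0 : x ≠ 0 := by
    rintro rfl
    rw [zero_pow hN0] at hx
    exact zero_ne_one hx
  have ht : (y / x) ^ N = 1 := by rw [div_pow, hx, hy, div_one]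
  have ht1 : y / x ≠ 1 := by
    intro h1
    rw [div_eq_one_iff_eq hx0] at h1
    exact hne h1.symm
  have h1 := val_one_sub_eq_one h hN ht ht1
  have h2 : x - y = x * (1 - y / x) := by field_simp
  rw [h2, map_mul, h1, mul_one, val_eq_one_of_pow_eq_one w hN0 hx] at hxy
  exact lt_irrefl _ hxy

/-- If a product has value `< 1`, some factor has value `< 1`. -/
lemma exists_val_lt_one_of_prod (w : Valuation Om Γ₀) (s : Multiset Om)
    (hs : w s.prod < 1) : ∃ a ∈ s, w a < 1 := by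
  induction s using Multiset.induction with
  | empty => simp at hs
  | cons a t ih =>
    rw [Multiset.prod_cons, map_mul] at hs
    by_cases ha : w a < 1
    · exact ⟨a, Multiset.mem_cons_self a t, ha⟩
    · by_cases ht : w t.prod < 1
      · obtain ⟨b, hb, hb1⟩ := ih ht
        exact ⟨b, Multiset.mem_cons_of_mem hb, hb1⟩
      · exfalso
        rw [not_lt] at ha ht
        exact absurd hs (not_lt.2 (one_le_mul_of_one_le_of_one_le ha ht))

end RootsOfUnity

section Orbit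

variable {E Om : Type*} [Field E] [Field Om] [Algebra E Om]
  {Γ₀ : Type*} [LinearOrderedCommGroupWithZero Γ₀] {w : Valuation Om Γ₀} {Q : ℕ}

lemma exists_primitiveRoot [IsAlgClosed Om] (h : ResidueDatum E Om w Q) {N : ℕ}
    (hN : Q.Coprime N) : ∃ ζ : Om, IsPrimitiveRoot ζ N := by
  have : NeZero ((N : ℕ) : Om) := ⟨fun h0 => by
    have := val_natCast_eq_one h hN
    rw [h0, map_zero] at this
    exact zero_ne_one this⟩
  exact HasEnoughRootsOfUnity.exists_primitiveRoot Om N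

/-- The exponents `Q ^ i` and `Q ^ j` give the same power of a primitive `N`-th root of
unity iff `i ≡ j` modulo the order of `Q` in `(ℤ/N)ˣ`. -/
lemma pow_Q_pow_eq_iff {N : ℕ} (hN0 : N ≠ 0) (hN : Q.Coprime N) {ζ : Om}
    (hζ : IsPrimitiveRoot ζ N) (i j : ℕ) :
    ζ ^ (Q ^ i) = ζ ^ (Q ^ j) ↔ i ≡ j [MOD orderOf (ZMod.unitOfCoprime Q hN)] := by
  have hfin : IsOfFinOrder ζ :=
    isOfFinOrder_iff_pow_eq_one.2 ⟨N, Nat.pos_of_ne_zero hN0, hζ.pow_eq_one⟩
  rw [hfin.pow_eq_pow_iff_modEq, ← hζ.eq_orderOf, ← ZMod.natCast_eq_natCast_iff,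
    ← pow_eq_pow_iff_modEq, Units.ext_iff]
  push_cast
  rfl

lemma pow_Q_pow_orderOf {N : ℕ} (hN0 : N ≠ 0) (hN : Q.Coprime N) {ζ : Om}
    (hζ : IsPrimitiveRoot ζ N) :
    ζ ^ (Q ^ orderOf (ZMod.unitOfCoprime Q hN)) = ζ := by
  have := (pow_Q_pow_eq_iff hN0 hN hζ (orderOf (ZMod.unitOfCoprime Q hN)) 0).2
    (by simp [Nat.ModEq])
  simpa using this

lemma orderOf_unit_pos {N : ℕ} (hN0 : N ≠ 0) (hN : Q.Coprime N) :
    0 < orderOf (ZMod.unitOfCoprime Q hN) := by
  have : NeZero N := ⟨hN0⟩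
  exact orderOf_pos _

/-- The minimal polynomial of a root of unity has integral coefficients. -/
lemma exists_lift_minpoly (w : Valuation Om Γ₀) {ζ : Om} {N : ℕ} (hN0 : N ≠ 0)
    (hζ : ζ ^ N = 1) :
    ∃ g : (OE E w)[X], g.map (OE E w).subtype = minpoly E ζ := by
  let _ : Algebra (OE E w) Om := ((algebraMap E Om).comp (OE E w).subtype).toAlgebra
  have : IsScalarTower (OE E w) E Om := IsScalarTower.of_algebraMap_eq (fun x => rfl)
  have hint : IsIntegral (OE E w) ζ := by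
    refine ⟨X ^ N - 1, monic_X_pow_sub_C 1 hN0, ?_⟩
    simp [hζ]
  have := minpoly.isIntegrallyClosed_eq_field_fractions E Om hint
  exact ⟨minpoly (OE E w) ζ, this.symm⟩

lemma isIntegral_of_pow_eq_one {ζ : Om} {N : ℕ} (hN0 : N ≠ 0) (hζ : ζ ^ N = 1) :
    IsIntegral E ζ := by
  refine ⟨X ^ N - 1, monic_X_pow_sub_C 1 hN0, ?_⟩
  simp [hζ]

/-- **Frobenius conjugate**: `ζ ^ Q` is a root of the minimal polynomial of `ζ`. -/
lemma aeval_pow_Q_minpoly [IsAlgClosed Om] (h : ResidueDatum E Om w Q) {N : ℕ}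
    (hN : Q.Coprime N) {ζ : Om} (hζ : ζ ^ N = 1) :
    aeval (ζ ^ Q) (minpoly E ζ) = 0 := by
  have hN0 := ne_zero_of_coprime h hN
  have hQ0 : Q ≠ 0 := by have := one_lt_Q h; omega
  have hint : IsIntegral E ζ := isIntegral_of_pow_eq_one hN0 hζ
  obtain ⟨g, hg⟩ := exists_lift_minpoly (E := E) w hN0 hζ
  set x : OO w := ⟨ζ, (val_eq_one_of_pow_eq_one w hN0 hζ).le⟩ with hx
  have h1 : red w (eval₂ (iota E w) x g) = 0 := by
    rw [red_eq_zero_iff, coe_eval₂, hg]
    show w (aeval ζ (minpoly E ζ)) < 1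
    rw [minpoly.aeval, map_zero]
    exact zero_lt_one
  have h2 : red w (eval₂ (iota E w) (x ^ Q) g) = 0 := by
    rw [red_eval₂, map_pow, ← frob_eval₂ h, ← red_eval₂, h1, zero_pow hQ0]
  rw [red_eq_zero_iff, coe_eval₂, hg] at h2
  have hxQ : ((x ^ Q : OO w) : Om) = ζ ^ Q := rfl
  rw [hxQ] at h2
  have hsplit : ((minpoly E ζ).map (algebraMap E Om)).Splits := IsAlgClosed.splits _
  rw [hsplit.aeval_eq_prod_aroots_of_monic (minpoly.monic hint)] at h2
  obtain ⟨b, hb, hb1⟩ := exists_val_lt_one_of_prod w _ h2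
  obtain ⟨a, ha, rfl⟩ := Multiset.mem_map.1 hb
  have ha0 : aeval a (minpoly E ζ) = 0 := (mem_aroots.1 ha).2
  have haN : a ^ N = 1 := by
    have hdvd : minpoly E ζ ∣ (X ^ N - 1 : E[X]) := minpoly.dvd E ζ (by simp [hζ])
    obtain ⟨q, hq⟩ := hdvd
    have := congrArg (aeval a) hq
    rw [map_mul, ha0, zero_mul] at this
    simpa [sub_eq_zero] using this
  have hζQ : (ζ ^ Q) ^ N = 1 := by rw [← pow_mul, mul_comm, pow_mul, hζ, one_pow]
  have : ζ ^ Q = a := eq_of_val_sub_lt_one h hN hζQ haN hb1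
  rw [this]
  exact ha0

/-- **Galois orbit**: every `E`-automorphism maps `ζ` to `ζ ^ (Q ^ j)` for some `j`. -/
lemma exists_pow_of_algEquiv (h : ResidueDatum E Om w Q) {N : ℕ} (hN : Q.Coprime N) {ζ : Om}
    (hζ : IsPrimitiveRoot ζ N) (σ : Om ≃ₐ[E] Om) :
    ∃ j < orderOf (ZMod.unitOfCoprime Q hN), σ ζ = ζ ^ (Q ^ j) := by
  classical
  have hN0 := ne_zero_of_coprime h hN
  set n := orderOf (ZMod.unitOfCoprime Q hN) with hn
  have hnpos : 0 < n := orderOf_unit_pos hN0 hN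
  have hζ1 : w ζ = 1 := val_eq_one_of_pow_eq_one w hN0 hζ.pow_eq_one
  set x : OO w := ⟨ζ, hζ1.le⟩ with hx
  obtain ⟨Φ, hΦ⟩ := exists_frobenius h
  -- the polynomial `∏_{j<n} (X - ζ̄^(Q^j))`
  set g : ℕ → (KK w)[X] := fun j => X - C ((red w x) ^ (Q ^ j)) with hg
  set P : (KK w)[X] := ∏ j ∈ Finset.range n, g j with hP
  have hgn : g n = g 0 := by
    simp only [hg]
    have : (red w x) ^ (Q ^ n) = red w x := by
      rw [← map_pow]
      congr 1
      exact Subtype.ext (pow_Q_pow_orderOf hN0 hN hζ)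
    rw [this, pow_zero, pow_one]
  have hmapg : ∀ j, (g j).map Φ = g (j + 1) := by
    intro j
    simp only [hg, Polynomial.map_sub, map_X, map_C, hΦ, ← pow_mul, pow_succ]
  have hPmap : P.map Φ = P := by
    rw [hP, Polynomial.map_prod]
    simp only [hmapg]
    have h1 := Finset.prod_range_succ g n
    have h2 := Finset.prod_range_succ' g n
    rw [h1, hgn] at h2
    exact (mul_right_cancel₀ (X_sub_C_ne_zero _) h2).symm
  have hcoeff : ∀ i, P.coeff i ∈ Set.range (rho E w) := by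
    intro i
    apply mem_range_rho_of_pow_Q h
    rw [← hΦ, ← coeff_map, hPmap]
  obtain ⟨P₀, hP₀⟩ := (mem_lifts P).1 ((lifts_iff_coeff_lifts P).2 hcoeff)
  have hPx : eval (red w x) P = 0 := by
    rw [hP, eval_prod]
    apply Finset.prod_eq_zero (Finset.mem_range.2 hnpos)
    simp [hg]
  have hy : w ((eval₂ (iota E w) x P₀ : OO w) : Om) < 1 := by
    rw [← red_eq_zero_iff, red_eval₂, ← eval_map, hP₀]
    exact hPx
  -- apply `σ`
  have hσζ : w (σ ζ) ≤ 1 := by rw [h.galois_inv]; exact hζ1.le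
  set xσ : OO w := ⟨σ ζ, hσζ⟩ with hxσ
  have hyσ : w ((eval₂ (iota E w) xσ P₀ : OO w) : Om) < 1 := by
    rw [coe_eval₂] at hy ⊢
    show w (aeval (σ ζ) _) < 1
    rw [aeval_algHom_apply, h.galois_inv]
    exact hy
  rw [← red_eq_zero_iff, red_eval₂, ← eval_map, hP₀, hP, eval_prod,
    Finset.prod_eq_zero_iff] at hyσ
  obtain ⟨j, hj, hj0⟩ := hyσ
  refine ⟨j, Finset.mem_range.1 hj, ?_⟩
  simp only [hg, eval_sub, eval_X, eval_C, sub_eq_zero] at hj0
  rw [← map_pow, red_eq_red_iff] at hj0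
  refine eq_of_val_sub_lt_one h hN ?_ ?_ hj0
  · rw [← map_pow, hζ.pow_eq_one, map_one]
  · show (ζ ^ (Q ^ j)) ^ N = 1
    rw [← pow_mul, mul_comm, pow_mul, hζ.pow_eq_one, one_pow]

/-- The reductions of `ζ ^ (Q ^ j)`, `j < n`, are pairwise distinct. -/
lemma red_pow_Q_pow_injOn (h : ResidueDatum E Om w Q) {N : ℕ} (hN : Q.Coprime N) {ζ : Om}
    (hζ : IsPrimitiveRoot ζ N) (x : OO w) (hx : (x : Om) = ζ) :
    Set.InjOn (fun j : ℕ => (red w x) ^ (Q ^ j))
      (Finset.range (orderOf (ZMod.unitOfCoprime Q hN)) : Set ℕ) := by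
  have hN0 := ne_zero_of_coprime h hN
  intro i hi j hj hij
  simp only [Finset.coe_range, Set.mem_Iio] at hi hj
  simp only [← map_pow] at hij
  rw [red_eq_red_iff] at hij
  have hij' : ζ ^ (Q ^ i) = ζ ^ (Q ^ j) := by
    refine eq_of_val_sub_lt_one h hN ?_ ?_ (by simpa [hx] using hij)
    · rw [← pow_mul, mul_comm, pow_mul, hζ.pow_eq_one, one_pow]
    · rw [← pow_mul, mul_comm, pow_mul, hζ.pow_eq_one, one_pow]
  have := (pow_Q_pow_eq_iff hN0 hN hζ i j).1 hij'
  rwa [Nat.ModEq, Nat.mod_eq_of_lt hi, Nat.mod_eq_of_lt hj] at this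

/-- **Orthogonality, integral form**: a polynomial over `OE` of degree `< n` with nonzero
reduction takes a unit value at `ζ`. -/
lemma val_eval₂_eq_one (h : ResidueDatum E Om w Q) {N : ℕ} (hN : Q.Coprime N) {ζ : Om}
    (hζ : IsPrimitiveRoot ζ N) (x : OO w) (hx : (x : Om) = ζ) (g : (OE E w)[X])
    (hdeg : g.natDegree < orderOf (ZMod.unitOfCoprime Q hN)) (hg : g.map (rho E w) ≠ 0) :
    w ((eval₂ (iota E w) x g : OO w) : Om) = 1 := by
  classical
  by_contra hne
  have hQ0 : Q ≠ 0 := by have := one_lt_Q h; omega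
  have hlt : w ((eval₂ (iota E w) x g : OO w) : Om) < 1 := lt_of_le_of_ne (val_le_one w _) hne
  rw [← red_eq_zero_iff, red_eval₂] at hlt
  have hroots : ∀ j : ℕ, eval ((red w x) ^ (Q ^ j)) (g.map (rho E w)) = 0 := by
    intro j
    rw [eval_map, ← frob_eval₂_iter h, hlt, zero_pow (pow_ne_zero _ hQ0)]
  set n := orderOf (ZMod.unitOfCoprime Q hN) with hn
  set s : Finset (KK w) := (Finset.range n).image (fun j : ℕ => (red w x) ^ (Q ^ j)) with hs
  have hcard : s.card = n := by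
    rw [hs, Finset.card_image_of_injOn (red_pow_Q_pow_injOn h hN hζ x hx), Finset.card_range]
  apply hg
  apply eq_zero_of_natDegree_lt_card_of_eval_eq_zero' _ s
  · intro y hy
    obtain ⟨j, -, rfl⟩ := Finset.mem_image.1 hy
    exact hroots j
  · rw [hcard]
    exact lt_of_le_of_lt natDegree_map_le hdeg

/-- **Orthogonality of the power basis**: for `0 ≠ f ∈ E[X]` of degree `< n`, the value
of `f ζ` is the maximum of the values of the coefficients. -/
lemma exists_val_aeval_eq (h : ResidueDatum E Om w Q) {N : ℕ} (hN : Q.Coprime N) {ζ : Om}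
    (hζ : IsPrimitiveRoot ζ N) (f : E[X]) (hf : f ≠ 0)
    (hdeg : f.natDegree < orderOf (ZMod.unitOfCoprime Q hN)) :
    ∃ i₀, f.coeff i₀ ≠ 0 ∧ w (aeval ζ f) = w (algebraMap E Om (f.coeff i₀)) ∧
      ∀ i, w (algebraMap E Om (f.coeff i)) ≤ w (algebraMap E Om (f.coeff i₀)) := by
  have hN0 := ne_zero_of_coprime h hN
  have hne : f.support.Nonempty := by
    rw [Finset.nonempty_iff_ne_empty, Ne, support_eq_empty]
    exact hf
  obtain ⟨i₀, hi₀, hmax⟩ :=
    Finset.exists_max_image f.support (fun i => w (algebraMap E Om (f.coeff i))) hne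
  set c := f.coeff i₀ with hc
  have hc0 : c ≠ 0 := mem_support_iff.1 hi₀
  have hwc0 : w (algebraMap E Om c) ≠ 0 := by
    rw [Ne, Valuation.zero_iff, map_eq_zero_iff _ (algebraMap E Om).injective]
    exact hc0
  have hmax' : ∀ i, w (algebraMap E Om (f.coeff i)) ≤ w (algebraMap E Om c) := by
    intro i
    by_cases hi : i ∈ f.support
    · exact hmax i hi
    · rw [notMem_support_iff.1 hi, map_zero, map_zero]
      exact zero_le
  -- normalise
  set f' : E[X] := C c⁻¹ * f with hf'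
  have hcoeff' : ∀ i, w (algebraMap E Om (f'.coeff i)) ≤ 1 := by
    intro i
    rw [hf', coeff_C_mul, map_mul, map_mul, map_inv₀, map_inv₀]
    rw [inv_mul_le_iff₀ (zero_lt_iff.2 hwc0), mul_one]
    exact hmax' i
  obtain ⟨g, hg⟩ := exists_lift_of_integral w f' hcoeff'
  have hζ1 : w ζ = 1 := val_eq_one_of_pow_eq_one w hN0 hζ.pow_eq_one
  have hgdeg : g.natDegree < orderOf (ZMod.unitOfCoprime Q hN) := by
    have h1 : g.natDegree = f'.natDegree := by
      rw [← hg, natDegree_map_eq_of_injective (OE E w).subtype_injective]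
    rw [h1]
    exact lt_of_le_of_lt (natDegree_C_mul_le _ _) hdeg
  have hgne : g.map (rho E w) ≠ 0 := by
    intro h0
    have h1 : (g.map (rho E w)).coeff i₀ = 0 := by rw [h0, coeff_zero]
    rw [coeff_map_rho_eq_zero_iff, hg, hf', coeff_C_mul, ← hc, inv_mul_cancel₀ hc0,
      map_one, map_one] at h1
    exact lt_irrefl _ h1
  have key := val_eval₂_eq_one h hN hζ ⟨ζ, hζ1.le⟩ rfl g hgdeg hgne
  rw [coe_eval₂, hg] at key
  have key' : w (aeval ζ f') = 1 := key
  rw [hf', map_mul, aeval_C, map_mul, map_inv₀, map_inv₀,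
    inv_mul_eq_one₀ hwc0] at key'
  exact ⟨i₀, hc0, key'.symm, hmax'⟩

/-- **Orthogonality of the power basis**: for `f ∈ E[X]` of degree `< n`, every coefficient
has value at most `w (f ζ)`. -/
lemma val_coeff_le (h : ResidueDatum E Om w Q) {N : ℕ} (hN : Q.Coprime N) {ζ : Om}
    (hζ : IsPrimitiveRoot ζ N) (f : E[X])
    (hdeg : f.natDegree < orderOf (ZMod.unitOfCoprime Q hN)) (i : ℕ) :
    w (algebraMap E Om (f.coeff i)) ≤ w (aeval ζ f) := by
  by_cases hf : f = 0
  · simp [hf]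
  obtain ⟨i₀, -, h1, h2⟩ := exists_val_aeval_eq h hN hζ f hf hdeg
  rw [h1]
  exact h2 i

end Orbit

end Fermat.Agent.H49.Unram
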