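/-
P-CFT / LOCAL, row LOC-2 (helper49): assembly.  `E(μ_N) / E` is unramified cyclic with a
Frobenius generator, for every `N` prime to the residue cardinality `Q`.
-/
import Mathlib
import Fermat.Agent.H49.CFT.UnramCyclo

set_option autoImplicit false
set_option maxSynthPendingDepth 3

namespace Fermat.Agent.H49.Unram

open Polynomial IntermediateField

section Field

variable {E Om : Type*} [Field E] [Field Om] [Algebra E Om]
  {Γ₀ : Type*} [LinearOrderedCommGroupWithZero Γ₀] {w : Valuation Om Γ₀} {Q : ℕ}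

lemma cyclo_eq_adjoin_simple {N : ℕ} (hN0 : N ≠ 0) {ζ : Om} (hζ : IsPrimitiveRoot ζ N) :
    cyclo E Om N = E⟮ζ⟯ := by
  have : NeZero N := ⟨hN0⟩
  apply le_antisymm
  · rw [cyclo, adjoin_le_iff]
    intro x hx
    obtain ⟨i, -, rfl⟩ := hζ.eq_pow_of_pow_eq_one hx
    exact pow_mem (mem_adjoin_simple_self E ζ) i
  · rw [adjoin_le_iff]
    intro x hx
    rw [Set.mem_singleton_iff] at hx
    subst hx
    exact subset_adjoin E _ hζ.pow_eq_one

lemma cyclo_mono (E Om : Type*) [Field E] [Field Om] [Algebra E Om] {N N' : ℕ}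
    (hNN' : N ∣ N') : cyclo E Om N ≤ cyclo E Om N' := by
  rw [cyclo, adjoin_le_iff]
  intro x hx
  obtain ⟨d, rfl⟩ := hNN'
  refine subset_adjoin E _ ?_
  show x ^ (N * d) = 1
  rw [pow_mul, hx, one_pow]

/-- Two automorphisms of `E(ζ)` agreeing at `ζ` are equal. -/
lemma algEquiv_ext_of_gen {ζ : Om} (τ₁ τ₂ : E⟮ζ⟯ ≃ₐ[E] E⟮ζ⟯)
    (hτ : (τ₁ (AdjoinSimple.gen E ζ) : Om) = (τ₂ (AdjoinSimple.gen E ζ) : Om)) : τ₁ = τ₂ := by
  have key : (E⟮ζ⟯.val.comp τ₁.toAlgHom) = (E⟮ζ⟯.val.comp τ₂.toAlgHom) := by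
    apply adjoin_algHom_ext
    intro x hx
    rw [Set.mem_singleton_iff] at hx
    subst hx
    exact hτ
  ext y
  exact DFunLike.congr_fun key y

lemma normal_of_isAlgClosed (E Om : Type*) [Field E] [Field Om] [Algebra E Om]
    [IsAlgClosed Om] [Algebra.IsAlgebraic E Om] : Normal E Om :=
  haveI : IsAlgClosure E Om := ⟨inferInstance, inferInstance⟩
  IsAlgClosure.normal E Om

lemma coe_restrictNormal (σ : Om ≃ₐ[E] Om) (F : IntermediateField E Om) [Normal E F] (y : F) :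
    ((σ.restrictNormal F y : F) : Om) = σ (y : Om) :=
  AlgEquiv.restrictNormal_commutes σ F y

lemma coe_liftNormal [Normal E Om] (F : IntermediateField E Om) (τ : F ≃ₐ[E] F) (y : F) :
    τ.liftNormal Om (y : Om) = ((τ y : F) : Om) :=
  AlgEquiv.liftNormal_commutes τ Om y

/-- Galois invariance descends to intermediate fields. -/
lemma galois_inv_of_intermediate [IsAlgClosed Om] [Algebra.IsAlgebraic E Om]
    (h : ResidueDatum E Om w Q) (F : IntermediateField E Om) (τ : F ≃ₐ[E] F) (y : F) :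
    w ((τ y : F) : Om) = w (y : Om) := by
  have := normal_of_isAlgClosed E Om
  rw [← coe_liftNormal F τ y, h.galois_inv]

/-- The Galois structure of `E(ζ) / E`: existence of the Frobenius, generation, order. -/
theorem exists_frob_adjoin_simple [IsAlgClosed Om] [Algebra.IsAlgebraic E Om]
    (h : ResidueDatum E Om w Q) {N : ℕ} (hN : Q.Coprime N) {ζ : Om}
    (hζ : IsPrimitiveRoot ζ N) :
    FiniteDimensional E E⟮ζ⟯ ∧ IsGalois E E⟮ζ⟯ ∧
    ∃ (φ : E⟮ζ⟯ ≃ₐ[E] E⟮ζ⟯) (σ₀ : Om ≃ₐ[E] Om), σ₀ ζ = ζ ^ Q ∧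
      (∀ y : E⟮ζ⟯, ((φ y : E⟮ζ⟯) : Om) = σ₀ (y : Om)) ∧
      (∀ τ : E⟮ζ⟯ ≃ₐ[E] E⟮ζ⟯, τ ∈ Subgroup.zpowers φ) ∧
      orderOf φ = orderOf (ZMod.unitOfCoprime Q hN) ∧
      Module.finrank E E⟮ζ⟯ = orderOf (ZMod.unitOfCoprime Q hN) := by
  have hN0 := ne_zero_of_coprime h hN
  have : NeZero N := ⟨hN0⟩
  have hnorm := normal_of_isAlgClosed E Om
  have hint : IsIntegral E ζ := isIntegral_of_pow_eq_one hN0 hζ.pow_eq_one
  have hcyc : IsCyclotomicExtension {N} E E⟮ζ⟯ :=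
    hζ.intermediateField_adjoin_isCyclotomicExtension E
  have hfd : FiniteDimensional E E⟮ζ⟯ := adjoin.finiteDimensional hint
  have hgal : IsGalois E E⟮ζ⟯ := IsCyclotomicExtension.isGalois {N} E E⟮ζ⟯
  refine ⟨hfd, hgal, ?_⟩
  set n := orderOf (ZMod.unitOfCoprime Q hN) with hn
  have hnpos : 0 < n := orderOf_unit_pos hN0 hN
  -- the Frobenius on `Om`
  obtain ⟨σ₀, hσ₀⟩ := minpoly.exists_algEquiv_of_root' (K := E) (L := Om) hint.isAlgebraic
    (aeval_pow_Q_minpoly h hN hζ.pow_eq_one)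
  set φ : E⟮ζ⟯ ≃ₐ[E] E⟮ζ⟯ := σ₀.restrictNormal E⟮ζ⟯ with hφdef
  have hφ : ∀ y : E⟮ζ⟯, ((φ y : E⟮ζ⟯) : Om) = σ₀ (y : Om) := fun y =>
    coe_restrictNormal σ₀ E⟮ζ⟯ y
  have hφpow : ∀ j : ℕ, (((φ ^ j) (AdjoinSimple.gen E ζ) : E⟮ζ⟯) : Om) = ζ ^ (Q ^ j) := by
    intro j
    induction j with
    | zero => simp
    | succ j ih =>
      rw [pow_succ', AlgEquiv.mul_apply, hφ, ih, map_pow, hσ₀, ← pow_mul, pow_succ']
  have hgen : ∀ τ : E⟮ζ⟯ ≃ₐ[E] E⟮ζ⟯, ∃ j < n, τ = φ ^ j := by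
    intro τ
    obtain ⟨j, hj, hτj⟩ := exists_pow_of_algEquiv h hN hζ (τ.liftNormal Om)
    refine ⟨j, hj, algEquiv_ext_of_gen _ _ ?_⟩
    rw [hφpow, ← coe_liftNormal E⟮ζ⟯ τ, AdjoinSimple.coe_gen]
    exact hτj
  have hord : orderOf φ = n := by
    rw [orderOf_eq_iff hnpos]
    constructor
    · apply algEquiv_ext_of_gen
      rw [hφpow, pow_Q_pow_orderOf hN0 hN hζ]
      simp
    · intro m hm hm0 hφm
      have h1 := hφpow m
      rw [hφm] at h1
      have h2 : ζ ^ (Q ^ m) = ζ ^ (Q ^ 0) := by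
        rw [← h1]; simp
      have h3 := (pow_Q_pow_eq_iff hN0 hN hζ m 0).1 h2
      rw [Nat.ModEq, Nat.mod_eq_of_lt hm, Nat.zero_mod] at h3
      omega
  have hmem : ∀ τ : E⟮ζ⟯ ≃ₐ[E] E⟮ζ⟯, τ ∈ Subgroup.zpowers φ := by
    intro τ
    obtain ⟨j, -, rfl⟩ := hgen τ
    exact Subgroup.pow_mem _ (Subgroup.mem_zpowers φ) j
  refine ⟨φ, σ₀, hσ₀, hφ, hmem, hord, ?_⟩
  rw [← IsGalois.card_aut_eq_finrank, ← orderOf_eq_card_of_forall_mem_zpowers hmem, hord]

/-- Elements of `E(ζ)` are values at `ζ` of polynomials of degree `< [E(ζ) : E]`. -/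
lemma exists_aeval_eq {ζ : Om} (hint : IsIntegral E ζ) {n : ℕ}
    (hfr : Module.finrank E E⟮ζ⟯ = n) (y : E⟮ζ⟯) :
    ∃ f : E[X], f.natDegree < n ∧ (y : Om) = aeval ζ f := by
  obtain ⟨f, hfdeg, hy⟩ := (adjoin.powerBasis hint).exists_eq_aeval y
  refine ⟨f, ?_, ?_⟩
  · rw [← hfr, PowerBasis.finrank]
    exact hfdeg
  · rw [hy, adjoin.powerBasis_gen]
    have := aeval_algHom_apply E⟮ζ⟯.val (AdjoinSimple.gen E ζ) f
    rw [← AdjoinSimple.coe_gen (F := E) (α := ζ)]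
    exact this.symm

lemma val_aeval_le_one (w : Valuation Om Γ₀) (f : E[X])
    (hf : ∀ i, w (algebraMap E Om (f.coeff i)) ≤ 1) {x : Om} (hx : w x ≤ 1) :
    w (aeval x f) ≤ 1 := by
  rw [aeval_eq_sum_range]
  refine Valuation.map_sum_le w (fun i _ => ?_)
  rw [Algebra.smul_def, map_mul, map_pow]
  exact mul_le_one₀ (hf i) zero_le (pow_le_one₀ zero_le hx)

lemma val_aeval_lt_one (w : Valuation Om Γ₀) (f : E[X])
    (hf : ∀ i, w (algebraMap E Om (f.coeff i)) < 1) {x : Om} (hx : w x ≤ 1) :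
    w (aeval x f) < 1 := by
  rw [aeval_eq_sum_range]
  refine Valuation.map_sum_lt w one_ne_zero (fun i _ => ?_)
  rw [Algebra.smul_def, map_mul, map_pow]
  calc w (algebraMap E Om (f.coeff i)) * w x ^ i ≤ w (algebraMap E Om (f.coeff i)) * 1 := by
        gcongr
        exact pow_le_one₀ zero_le hx
    _ = w (algebraMap E Om (f.coeff i)) := mul_one _
    _ < 1 := hf i

/-- **Main theorem for `E(ζ)`**: unramified cyclic with Frobenius generator. -/
theorem isUnramCyclic_adjoin_simple [IsAlgClosed Om] [Algebra.IsAlgebraic E Om]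
    (h : ResidueDatum E Om w Q) {N : ℕ} (hN : Q.Coprime N) {ζ : Om}
    (hζ : IsPrimitiveRoot ζ N) :
    ∃ φ : E⟮ζ⟯ ≃ₐ[E] E⟮ζ⟯,
      IsUnramCyclic w Q E⟮ζ⟯ (orderOf (ZMod.unitOfCoprime Q hN)) φ := by
  classical
  obtain ⟨hfd, hgal, φ, σ₀, hσ₀, hφ, hmem, hord, hfr⟩ := exists_frob_adjoin_simple h hN hζ
  have hN0 := ne_zero_of_coprime h hN
  have hint : IsIntegral E ζ := isIntegral_of_pow_eq_one hN0 hζ.pow_eq_one
  have hζ1 : w ζ = 1 := val_eq_one_of_pow_eq_one w hN0 hζ.pow_eq_one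
  set n := orderOf (ZMod.unitOfCoprime Q hN) with hn
  have hnpos : 0 < n := orderOf_unit_pos hN0 hN
  have hcoefint : ∀ (f : E[X]), f.natDegree < n → w (aeval ζ f) ≤ 1 →
      ∀ i, w (algebraMap E Om (f.coeff i)) ≤ 1 := fun f hfdeg hle i =>
    (val_coeff_le h hN hζ f hfdeg i).trans hle
  refine ⟨φ, ⟨hfd, hgal, hfr, ?_, ?_, hmem, hord, ?_, ?_,
    galois_inv_of_intermediate h _⟩⟩
  · -- unramified
    intro y hy
    obtain ⟨f, hfdeg, hyf⟩ := exists_aeval_eq hint hfr y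
    have hf0 : f ≠ 0 := by
      rintro rfl
      apply hy
      apply Subtype.ext
      rw [hyf]
      simp
    obtain ⟨i₀, -, h1, -⟩ := exists_val_aeval_eq h hN hζ f hf0 hfdeg
    exact ⟨f.coeff i₀, by rw [hyf, h1]⟩
  · -- Frobenius
    intro y hy
    obtain ⟨f, hfdeg, hyf⟩ := exists_aeval_eq hint hfr y
    have hcoef := hcoefint f hfdeg (by rw [← hyf]; exact hy)
    obtain ⟨g, hg⟩ := exists_lift_of_integral w f hcoef
    set x : OO w := ⟨ζ, hζ1.le⟩ with hx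
    have e1 : ((eval₂ (iota E w) x g : OO w) : Om) = (y : Om) := by
      rw [coe_eval₂, hg, hyf]
    have e2 : ((eval₂ (iota E w) (x ^ Q) g : OO w) : Om) = ((φ y : E⟮ζ⟯) : Om) := by
      rw [coe_eval₂, hg, hφ, hyf, ← aeval_algHom_apply, hσ₀]
      rfl
    have e3 : red w (eval₂ (iota E w) (x ^ Q) g) = red w ((eval₂ (iota E w) x g) ^ Q) := by
      rw [red_eval₂, map_pow, map_pow, red_eval₂, frob_eval₂ h]
    rw [red_eq_red_iff, e2] at e3
    have e4 : (((eval₂ (iota E w) x g) ^ Q : OO w) : Om) = (y : Om) ^ Q := by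
      rw [← e1]; rfl
    rw [e4] at e3
    exact e3
  · -- uniqueness
    intro σ τ hστ
    apply algEquiv_ext_of_gen
    have hgen1 : w ((AdjoinSimple.gen E ζ : E⟮ζ⟯) : Om) ≤ 1 := by
      rw [AdjoinSimple.coe_gen]; exact hζ1.le
    have hgenN : (AdjoinSimple.gen E ζ : E⟮ζ⟯) ^ N = 1 := by
      apply Subtype.ext
      show (ζ : Om) ^ N = 1
      exact hζ.pow_eq_one
    have hpow : ∀ ρ' : E⟮ζ⟯ ≃ₐ[E] E⟮ζ⟯,
        ((ρ' (AdjoinSimple.gen E ζ) : E⟮ζ⟯) : Om) ^ N = 1 := by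
      intro ρ'
      have : (ρ' (AdjoinSimple.gen E ζ)) ^ N = 1 := by rw [← map_pow, hgenN, map_one]
      exact congrArg (fun z : E⟮ζ⟯ => (z : Om)) this
    exact eq_of_val_sub_lt_one h hN (hpow σ) (hpow τ) (hστ _ hgen1)
  · -- residue system
    obtain ⟨R, hRcard, hR⟩ := h.res_card
    set Ψ : (Fin n → E) → E⟮ζ⟯ := fun c =>
      ∑ i : Fin n, algebraMap E E⟮ζ⟯ (c i) * (AdjoinSimple.gen E ζ) ^ (i : ℕ) with hΨ
    have hΨcoe : ∀ c, ((Ψ c : E⟮ζ⟯) : Om) = aeval ζ (ofFn n c) := by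
      intro c
      rw [ofFn_eq_sum_monomial, map_sum]
      simp only [hΨ, aeval_monomial]
      rw [← IntermediateField.coe_val, map_sum]
      rfl
    have hdegc : ∀ c : Fin n → E, (ofFn n c).natDegree < n := fun c =>
      ofFn_natDegree_lt hnpos c
    have hcoeffc : ∀ (c : Fin n → E) (i : Fin n), (ofFn n c).coeff i = c i := fun c i =>
      ofFn_coeff_eq_val_of_lt c i.2
    have hsep : ∀ c c' : Fin n → E, (∀ i, c i ∈ R) → (∀ i, c' i ∈ R) →
        w (((Ψ c : E⟮ζ⟯) : Om) - ((Ψ c' : E⟮ζ⟯) : Om)) < 1 → c = c' := by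
      intro c c' hc hc' hlt
      funext i
      apply hR.2.1 _ (hc i) _ (hc' i)
      have := val_coeff_le h hN hζ (ofFn n (c - c')) (hdegc _) i
      rw [hcoeffc, map_sub (ofFn n) c c', map_sub (aeval (R := E) ζ), ← hΨcoe, ← hΨcoe] at this
      exact lt_of_le_of_lt this hlt
    set S : Finset (Fin n → E) := Fintype.piFinset (fun _ => R) with hS
    refine ⟨S.image Ψ, ?_, ?_, ?_, ?_⟩
    · rw [Finset.card_image_of_injOn, Fintype.card_piFinset]
      · simp [hRcard]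
      · intro c hc c' hc' hcc'
        apply hsep c c' (Fintype.mem_piFinset.1 hc) (Fintype.mem_piFinset.1 hc')
        have hcc'' : Ψ c = Ψ c' := hcc'
        rw [hcc'', sub_self, map_zero]
        exact zero_lt_one
    · intro r hr
      obtain ⟨c, hc, rfl⟩ := Finset.mem_image.1 hr
      show w ((Ψ c : E⟮ζ⟯) : Om) ≤ 1
      rw [hΨcoe]
      refine val_aeval_le_one w _ (fun i => ?_) hζ1.le
      by_cases hi : i < n
      · rw [ofFn_coeff_eq_val_of_lt c hi]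
        exact hR.1 _ (Fintype.mem_piFinset.1 hc _)
      · rw [ofFn_coeff_eq_zero_of_ge c (not_lt.1 hi), map_zero, map_zero]
        exact zero_le
    · intro r hr r' hr' hlt
      obtain ⟨c, hc, rfl⟩ := Finset.mem_image.1 hr
      obtain ⟨c', hc', rfl⟩ := Finset.mem_image.1 hr'
      rw [hsep c c' (Fintype.mem_piFinset.1 hc) (Fintype.mem_piFinset.1 hc') hlt]
    · intro y hy
      obtain ⟨f, hfdeg, hyf⟩ := exists_aeval_eq hint hfr y
      have hcoef := hcoefint f hfdeg (by rw [← hyf]; exact hy)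
      choose r hr hr' using fun i : Fin n => hR.2.2 (f.coeff i) (hcoef i)
      refine ⟨Ψ r, Finset.mem_image.2 ⟨r, Fintype.mem_piFinset.2 hr, rfl⟩, ?_⟩
      show w ((y : Om) - ((Ψ r : E⟮ζ⟯) : Om)) < 1
      rw [hΨcoe, hyf, ← map_sub]
      refine val_aeval_lt_one w _ (fun i => ?_) hζ1.le
      rw [coeff_sub]
      by_cases hi : i < n
      · rw [ofFn_coeff_eq_val_of_lt r hi]
        exact hr' ⟨i, hi⟩
      · rw [ofFn_coeff_eq_zero_of_ge r (not_lt.1 hi),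
          coeff_eq_zero_of_natDegree_lt (lt_of_lt_of_le hfdeg (not_lt.1 hi)), sub_zero,
          map_zero, map_zero]
        exact zero_lt_one

end Field

end Fermat.Agent.H49.Unram
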