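/-
P-CFT / LOCAL, row LOC-2 (helper49), complement requested by helper78 for LOC-6:
THE MAXIMAL UNRAMIFIED SUBEXTENSION.

If `F` is a henselian field inside `Om` whose residue field has `Q'` elements, then `F`
contains all `(Q' - 1)`-th roots of unity of `Om` (Hensel in `F`).  Hence, for `E ≤ F` with
residue cardinalities `Q` and `Q' = Q ^ f`, the unramified extension `E(μ_{Q^f - 1})` of degree
`f` of `E` is contained in `F`.
-/
import Mathlib
import Fermat.Agent.H49.CFT.UnramQbar

set_option autoImplicit false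
set_option maxSynthPendingDepth 3

namespace Fermat.Agent.H49.Unram

open Polynomial IntermediateField

section Hensel

variable {F Om : Type*} [Field F] [Field Om] [Algebra F Om]
  {Γ₀ : Type*} [LinearOrderedCommGroupWithZero Γ₀] {w : Valuation Om Γ₀} {Q' : ℕ}

/-- **Teichmüller lift**: a henselian field with residue cardinality `Q'` contains all
`(Q' - 1)`-th roots of unity. -/
theorem mem_range_of_pow_eq_one (h : ResidueDatum F Om w Q') (hhens : HenselK F w) {ζ : Om}
    (hζ : ζ ^ (Q' - 1) = 1) : ζ ∈ Set.range (algebraMap F Om) := by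
  have hQ1 := one_lt_Q h
  set N := Q' - 1 with hNdef
  have hN0 : N ≠ 0 := by omega
  have hN : Q'.Coprime N := by
    have := coprime_pow_sub_one Q' 1 (by omega) one_pos
    rwa [pow_one] at this
  have hζ1 : w ζ = 1 := val_eq_one_of_pow_eq_one w hN0 hζ
  -- the residue class of `ζ` comes from `F`
  have hy : (red w ⟨ζ, hζ1.le⟩) ^ Q' = red w ⟨ζ, hζ1.le⟩ := by
    have h1 : (red w ⟨ζ, hζ1.le⟩) ^ N = 1 := by
      rw [← map_pow]
      have : (⟨ζ, hζ1.le⟩ : OO w) ^ N = 1 := Subtype.ext hζ
      rw [this, map_one]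
    have h2 : Q' = N + 1 := by omega
    rw [h2, pow_succ, h1, one_mul]
  obtain ⟨c, hc⟩ := mem_range_rho_of_pow_Q h hy
  rw [rho_apply, red_eq_red_iff] at hc
  have hcζ : w (algebraMap F Om (c : F) - ζ) < 1 := hc
  have hc1 : w (algebraMap F Om (c : F)) = 1 := by
    have h1 : algebraMap F Om (c : F) = (algebraMap F Om (c : F) - ζ) + ζ := by ring
    rw [h1, Valuation.map_add_eq_of_lt_right w (by rw [hζ1]; exact hcζ), hζ1]
  -- Hensel for `X ^ N - 1`
  have hcoeff : ∀ i, w (algebraMap F Om ((X ^ N - 1 : F[X]).coeff i)) ≤ 1 := by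
    intro i
    rw [coeff_sub, coeff_X_pow, coeff_one, map_sub]
    refine (Valuation.map_sub w _ _).trans (max_le ?_ ?_)
    · split_ifs <;> simp
    · split_ifs <;> simp
  have heval : w (algebraMap F Om ((X ^ N - 1 : F[X]).eval (c : F))) < 1 := by
    rw [eval_sub, eval_pow, eval_X, eval_one, map_sub, map_pow, map_one, ← hζ]
    exact val_pow_sub_pow_lt_one w hc1.le hζ1.le hcζ N
  have hder : w (algebraMap F Om ((X ^ N - 1 : F[X]).derivative.eval (c : F))) = 1 := by
    rw [derivative_sub, derivative_one, sub_zero, derivative_X_pow, eval_mul, eval_pow, eval_X,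
      eval_C, map_mul, map_pow, map_natCast, map_mul, map_pow, hc1, one_pow, mul_one]
    exact val_natCast_eq_one h hN
  obtain ⟨a, ha0, hac⟩ := hhens (X ^ N - 1) (monic_X_pow_sub_C 1 hN0) hcoeff (c : F) hc1.le
    heval hder
  have haN : (algebraMap F Om a) ^ N = 1 := by
    rw [eval_sub, eval_pow, eval_X, eval_one, sub_eq_zero] at ha0
    rw [← map_pow, ha0, map_one]
  have haζ : w (algebraMap F Om a - ζ) < 1 := by
    have h1 : algebraMap F Om a - ζ =
        algebraMap F Om (a - (c : F)) + (algebraMap F Om (c : F) - ζ) := by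
      rw [map_sub]; ring
    rw [h1]
    exact Valuation.map_add_lt w hac hcζ
  exact ⟨a, eq_of_val_sub_lt_one h hN haN hζ haζ⟩

end Hensel

section Max

variable {E Om : Type*} [Field E] [Field Om] [Algebra E Om]
  {Γ₀ : Type*} [LinearOrderedCommGroupWithZero Γ₀] {w : Valuation Om Γ₀}

/-- **Maximal unramified subextension**: a henselian intermediate field `F` of `Om / E` with
residue cardinality `Q'` contains `E(μ_{Q' - 1})`. -/
theorem cyclo_le_of_hensel (F : IntermediateField E Om) {Q' : ℕ}
    (h : ResidueDatum F Om w Q') (hhens : HenselK F w) : cyclo E Om (Q' - 1) ≤ F := by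
  rw [cyclo, adjoin_le_iff]
  intro ζ hζ
  obtain ⟨a, rfl⟩ := mem_range_of_pow_eq_one h hhens hζ
  exact a.2

/-- Tower form: `E → F → Om` with `F` henselian of residue cardinality `Q'`: every element of
`E(μ_{Q' - 1})` comes from `F`. -/
theorem mem_range_of_mem_cyclo (F : Type*) [Field F] [Algebra E F] [Algebra F Om]
    [IsScalarTower E F Om] {Q' : ℕ} (h : ResidueDatum F Om w Q') (hhens : HenselK F w)
    {x : Om} (hx : x ∈ cyclo E Om (Q' - 1)) : x ∈ Set.range (algebraMap F Om) := by
  have hle : cyclo E Om (Q' - 1) ≤ ((algebraMap F Om).fieldRange.toIntermediateField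
      (fun e => ⟨algebraMap E F e, (IsScalarTower.algebraMap_apply E F Om e).symm⟩)) := by
    rw [cyclo, adjoin_le_iff]
    intro ζ hζ
    exact mem_range_of_pow_eq_one h hhens hζ
  exact hle hx

end Max

section Qbar

open Fermat.Agent.H81.Local

variable {q : ℕ} [Fact q.Prime]

/-- Concrete form: a finite extension `E'` of `K_v` contains all roots of unity of order
`resCard q E' - 1`. -/
theorem mem_of_pow_resCard_sub_one {E' : IntermediateField ℚ (AlgebraicClosure ℚ)}
    (hE' : IsLocalFinite q E') {ζ : AlgebraicClosure ℚ} (hζ : ζ ^ (resCard q E' - 1) = 1) :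
    ζ ∈ E' := by
  obtain ⟨a, rfl⟩ := mem_range_of_pow_eq_one (residueDatum_qbar hE') (henselK_qbar hE') hζ
  exact a.2

/-- Concrete form of the maximal unramified subextension: for finite extensions `E ≤ E'` of
`K_v` with `resCard q E' = resCard q E ^ f`, the unramified extension of degree `f` of `E` is
contained in `E'`. -/
theorem unramExt_le {E E' : IntermediateField ℚ (AlgebraicClosure ℚ)} (hEE' : E ≤ E')
    (hE' : IsLocalFinite q E') {f : ℕ} (hf : resCard q E' = resCard q E ^ f)
    {x : AlgebraicClosure ℚ} (hx : x ∈ unramExt q E f) : x ∈ E' := by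
  have hle : unramExt q E f ≤ IntermediateField.extendScalars hEE' := by
    rw [unramExt, cyclo, adjoin_le_iff]
    intro ζ hζ
    rw [Set.mem_ofPred_eq, ← hf] at hζ
    exact (IntermediateField.mem_extendScalars hEE').2 (mem_of_pow_resCard_sub_one hE' hζ)
  exact (IntermediateField.mem_extendScalars hEE').1 (hle hx)

end Qbar

end Fermat.Agent.H49.Unram
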